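import Mathlib
import Fermat.Prelude.Def_ModularCurve_ArithmeticGalois

/-!
# P-ES1 (= P-DS block DS-3) : the model of `X₁(M)` (helper29)

Everything lives inside `ℚ((q))`; the cusp `∞` is rational (level structure of `μ`-type).

* `genCoeff M a n = ∑_{d ∣ n} d³ ([n/d ≡ a] + [n/d ≡ -a])` : the `n`-th coefficient of
  `GEN_a = ∑_{c ≥ 1, c ≡ ±a (M)} ∑_{m ≥ 1} m³ q^{c m}`, i.e. of the normalised weight-4 lattice sum
  `(3!/(2πi)⁴) ∑_{(c,e) ∈ ℤ², c ≡ a (M)} (c τ + e)⁻⁴`.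
* `vGen M a = q⁻¹ · E₄² · GEN_a / ∏ (1 - qⁿ)²⁴ = E₄² · GEN_a / Δ ∈ ℤ((q))` : a holomorphic weight-0
  function on `ℍ`, invariant under `Γ₁(M)`; `γ = [[α, β], [c, δ]] ∈ Γ₀(M)` maps `v_a` to `v_{α a}`.
* `F1 M = ℚ(j(q^d) : d ∣ M)(v_a : a ∈ (ℤ/M)ˣ)` : the function field of `X₁(M)` over `ℚ`.
* `F1Bar M`, `F1C M`, `J1 M` : base changes and the Jacobian, via the prelude constructions
  (which are generic in the intermediate field `F₀ ⊆ ℚ((q))`), so that `G_ℚ` acts on `J1 M`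
  and on its torsion through `ModularCurve.arithmeticGalois (F1 M)`.
-/

set_option autoImplicit false

noncomputable section

namespace Fermat.Agent.H29.ES1

open ModularCurve AlgebraicCurve

/-- The `n`-th coefficient of `GEN_a = ∑_{c ≥ 1, c ≡ ±a (M)} ∑_{m ≥ 1} m³ q^{c m}`. -/
def genCoeff (M : ℕ) (a : ZMod M) (n : ℕ) : ℤ :=
  ∑ d ∈ n.divisors,
    ((if ((n / d : ℕ) : ZMod M) = a then (d : ℤ) ^ 3 else 0)
      + (if ((n / d : ℕ) : ZMod M) = -a then (d : ℤ) ^ 3 else 0))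

/-- `GEN_a` as an integral power series. -/
def genPS (M : ℕ) (a : ZMod M) : PowerSeries ℤ := PowerSeries.mk (genCoeff M a)

@[simp]
theorem coeff_genPS (M : ℕ) (a : ZMod M) (n : ℕ) :
    PowerSeries.coeff n (genPS M a) = genCoeff M a n := by
  simp [genPS]

theorem genCoeff_zero (M : ℕ) (a : ZMod M) : genCoeff M a 0 = 0 := by
  simp [genCoeff]

theorem genCoeff_neg (M : ℕ) (a : ZMod M) (n : ℕ) : genCoeff M (-a) n = genCoeff M a n := by
  unfold genCoeff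
  refine Finset.sum_congr rfl fun d _ => ?_
  rw [neg_neg, add_comm]

theorem genPS_neg (M : ℕ) (a : ZMod M) : genPS M (-a) = genPS M a := by
  ext n
  rw [coeff_genPS, coeff_genPS, genCoeff_neg]

/-- The numerator `E₄² · GEN_a · (∏ (1 - qⁿ)²⁴)⁻¹` of `v_a`, an integral power series. -/
def vNum (M : ℕ) (a : ZMod M) : PowerSeries ℤ :=
  eisenstein4 ^ 2 * genPS M a * dedekindEtaUnitInv

theorem vNum_neg (M : ℕ) (a : ZMod M) : vNum M (-a) = vNum M a := by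
  rw [vNum, vNum, genPS_neg]

/-- `v_a = E₄² · GEN_a / Δ ∈ ℤ((q)) ⊆ ℚ((q))`. -/
def vGen (M : ℕ) (a : ZMod M) : LaurentSeries ℚ :=
  HahnSeries.single (-1 : ℤ) (1 : ℚ) *
    HahnSeries.ofPowerSeries ℤ ℚ ((vNum M a).map (Int.castRingHom ℚ))

theorem vGen_neg (M : ℕ) (a : ZMod M) : vGen M (-a) = vGen M a := by
  rw [vGen, vGen, vNum_neg]

/-- The set of generators `v_a`, `a ∈ (ℤ/M)ˣ`. -/
def vGenSet (M : ℕ) : Set (LaurentSeries ℚ) :=
  {x | ∃ a : (ZMod M)ˣ, x = vGen M (a : ZMod M)}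

theorem vGen_mem_vGenSet (M : ℕ) (a : (ZMod M)ˣ) : vGen M (a : ZMod M) ∈ vGenSet M :=
  ⟨a, rfl⟩

/-- **The function field of `X₁(M)` over `ℚ`** (model with rational cusp `∞`). -/
def F1 (M : ℕ) [NeZero M] : IntermediateField ℚ (LaurentSeries ℚ) :=
  IntermediateField.adjoin ℚ (divisorExpansions M ∪ vGenSet M)

variable (M : ℕ) [NeZero M]

theorem full_le_F1 : modularFunctionFieldFull M ≤ F1 M := by
  rw [modularFunctionFieldFull, F1]
  exact IntermediateField.adjoin.mono ℚ _ _ Set.subset_union_left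

theorem vGen_mem_F1 (a : (ZMod M)ˣ) : vGen M (a : ZMod M) ∈ F1 M :=
  IntermediateField.subset_adjoin ℚ _ (Or.inr (vGen_mem_vGenSet M a))

theorem jq_mem_F1 : jq ∈ F1 M :=
  full_le_F1 M (modularFunctionField_le_full M (jq_mem M))

theorem jqd_mem_F1 {d : ℕ} [NeZero d] (hd : d ∣ M) : qExpand ℚ d jq ∈ F1 M :=
  full_le_F1 M (jqd_mem_full M hd)

/-- The function field of `X₁(M)` over `ℚ̄`. -/
abbrev F1Bar : IntermediateField (AlgebraicClosure ℚ) (LaurentSeries (AlgebraicClosure ℚ)) :=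
  laurentBaseChange (AlgebraicClosure ℚ) (F1 M)

/-- The function field of `X₁(M)` over `ℂ`. -/
abbrev F1C : IntermediateField ℂ (LaurentSeries ℂ) :=
  laurentBaseChange ℂ (F1 M)

/-- `J₁(M)(ℚ̄)`. -/
abbrev J1 : Type _ := Pic0 (AlgebraicClosure ℚ) (F1Bar M)

/-- `J₁(M)(ℚ̄)[n]`. -/
abbrev J1Tors (n : ℕ) : Type _ := Pic0.torsion (AlgebraicClosure ℚ) (F1Bar M) n

/-- The absolute Galois group of `ℚ` in the prelude's model. -/
abbrev GalQ : Type := AlgebraicClosure ℚ ≃ₐ[ℚ] AlgebraicClosure ℚ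

example : DistribMulAction GalQ (J1 M) := inferInstance

/-- The Galois representation on `J₁(M)(ℚ̄)[n]`. -/
def J1.torsionGaloisRep (n : ℕ) : GalQ →* Module.End (ZMod n) (J1Tors M n) :=
  (SemilinearAut.torsionRep _ _ n).comp (arithmeticGalois (F1 M))

@[simp]
theorem J1.torsionGaloisRep_apply {n : ℕ} (σ : GalQ) (x : J1Tors M n) :
    J1.torsionGaloisRep M n σ x = arithmeticGalois (F1 M) σ • x :=
  rfl

theorem J1.coe_torsionGaloisRep_apply {n : ℕ} (σ : GalQ) (x : J1Tors M n) :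
    ((J1.torsionGaloisRep M n σ x : J1Tors M n) : J1 M) = σ • (x : J1 M) :=
  rfl

end Fermat.Agent.H29.ES1

end
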