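import Mathlib
import Fermat.Prelude.Def_ModularCurve_ModularUnit
import Fermat.Prelude.Def_GaloisRep_Residual
import Fermat.Agent.H29.ES1.Defs
import Fermat.Agent.H94.EsA.Interfaces

/-!
# P-ES1 : interfaces for the NEW rows (generators of the function field of `X₁(M)`, pure algebra)

`Prop`-valued statements only.  See findings "P-ES1 DESIGN NOTE v1 (helper29)".

* `GenFormalStatement`, `GenSepStatement`   (row ES1-GEN-a) : leading terms of the `v_a`.
* `LatSumStatement`, `LatSumQExpStatement`  (row ES1-GEN-b) : the weight-4 lattice sums.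
* `VFunStatement`                           (row ES1-GEN-c) : the holomorphic functions `V_a`.
* `ThetaEigenStatement`                     (row ES1-THETA) : eigenvectors modulo `ℓ` from a ring
  homomorphism of a faithful commutative ring of operators on a lattice.
* `CycloCharGenStatement`                   (row ES1-EPS)   : cyclotomic characters modulo `n`.
-/

set_option autoImplicit false

noncomputable section

open UpperHalfPlane ModularCurve
open scoped MatrixGroups Manifold Topology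

namespace Fermat.Agent.H29.ES1

/-! ## ES1-GEN-a : formal properties of the generators -/

/-- `min(a, M - a)` for the representative `0 ≤ a < M`. -/
def repMin (M : ℕ) (a : ZMod M) : ℕ := min a.val (M - a.val)

/-- **ES1-GEN-a (1).**  `GEN_a = q^ã + …`, `ã = repMin M a`, and `v_a = q^(ã-1) + …`
(for `a ≠ 0`, `2a ≠ 0`). -/
def GenFormalStatement : Prop :=
  ∀ (M : ℕ) [NeZero M] (a : ZMod M), a ≠ 0 → a ≠ -a →
    (∀ n : ℕ, n < repMin M a → genCoeff M a n = 0) ∧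
    genCoeff M a (repMin M a) = 1 ∧
    IsMonicOfOrder (vGen M a) ((repMin M a : ℤ) - 1)

/-- **ES1-GEN-a (2).**  For `a ≠ ±b` one of `v_a - v_b`, `v_b - v_a` has leading coefficient `1`
(so the differences are units for every Gauss valuation, in every residue characteristic). -/
def GenSepStatement : Prop :=
  ∀ (M : ℕ) [NeZero M] (a b : ZMod M), a ≠ 0 → b ≠ 0 → a ≠ -a → b ≠ -b → a ≠ b → a ≠ -b →
    IsMonicOfOrder (vGen M a - vGen M b) ((repMin M a : ℤ) - 1) ∨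
    IsMonicOfOrder (vGen M b - vGen M a) ((repMin M b : ℤ) - 1)

/-! ## ES1-GEN-b : the weight-4 lattice sums -/

/-- The nonzero integer vectors congruent to `a` modulo `M`. -/
def latSet (M : ℕ) (a : Fin 2 → ZMod M) : Set (Fin 2 → ℤ) :=
  {v | (fun i => ((v i : ℤ) : ZMod M)) = a ∧ v ≠ 0}

/-- The lattice sum `∑_{(c,e) ≡ a (M), (c,e) ≠ 0} (c z + e)⁻⁴`. -/
def latSum (M : ℕ) (a : Fin 2 → ZMod M) (z : ℍ) : ℂ :=
  ∑' v : latSet M a, (((v.1 0 : ℤ) : ℂ) * (z : ℂ) + ((v.1 1 : ℤ) : ℂ))⁻¹ ^ 4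

/-- The column sum `∑_{c ≡ a (M)} ∑_{e ∈ ℤ} (c z + e)⁻⁴ = ∑_b latSum (a, b)`. -/
def colSum (M : ℕ) [NeZero M] (a : ZMod M) (z : ℍ) : ℂ :=
  ∑ b : ZMod M, latSum M ![a, b] z

/-- The action of `SL(2, ℤ)` on congruence classes of row vectors. -/
def vecAct (M : ℕ) (a : Fin 2 → ZMod M) (γ : SL(2, ℤ)) : Fin 2 → ZMod M :=
  Matrix.vecMul a ((γ : Matrix (Fin 2) (Fin 2) ℤ).map (Int.castRingHom (ZMod M)))

/-- **ES1-GEN-b (1).**  The lattice sums are holomorphic, bounded at `i∞`, and are permuted by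
`SL(2, ℤ)` with the weight-4 automorphy factor. -/
def LatSumStatement : Prop :=
  ∀ (M : ℕ) [NeZero M] (a : Fin 2 → ZMod M),
    MDiff (latSum M a) ∧
    (∃ C Y : ℝ, ∀ z : ℍ, Y ≤ z.im → ‖latSum M a z‖ ≤ C) ∧
    ∀ (γ : SL(2, ℤ)) (z : ℍ),
      latSum M a (γ • z) =
        ((((γ : Matrix (Fin 2) (Fin 2) ℤ) 1 0 : ℤ) : ℂ) * (z : ℂ)
          + (((γ : Matrix (Fin 2) (Fin 2) ℤ) 1 1 : ℤ) : ℂ)) ^ 4 * latSum M (vecAct M a γ) z

/-- **ES1-GEN-b (2).**  The `q`-expansion of the column sums: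
`colSum a = ((2π)⁴/6) ∑_n genCoeff M a n qⁿ` for `a ≠ 0`. -/
def LatSumQExpStatement : Prop :=
  ∀ (M : ℕ) [NeZero M] (a : ZMod M), a ≠ 0 → ∀ z : ℍ,
    HasSum (fun n : ℕ => ((genCoeff M a n : ℤ) : ℂ) *
        Complex.exp (2 * (Real.pi : ℂ) * Complex.I * (n : ℂ) * (z : ℂ)))
      ((6 : ℂ) / (2 * (Real.pi : ℂ)) ^ 4 * colSum M a z)

/-! ## ES1-GEN-c : the holomorphic weight-0 generators -/

/-- The holomorphic function `V_a = E₄² · (6/(2π)⁴) · colSum a / Δ` on `ℍ`. -/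
def VFun (M : ℕ) [NeZero M] (a : ZMod M) (z : ℍ) : ℂ :=
  (ModularForm.E₄ z) ^ 2 * ((6 : ℂ) / (2 * (Real.pi : ℂ)) ^ 4 * colSum M a z)
    / ModularForm.discriminant z

/-- **ES1-GEN-c.**  `V_a` is holomorphic on `ℍ`, has `q`-expansion `v_a`, is permuted by `Γ₀(M)`
(`γ = [[α, β], [c, δ]]` maps `V_a` to `V_{α a}`), and all its `SL(2, ℤ)`-translates have moderate
growth at `i∞`. -/
def VFunStatement : Prop :=
  ∀ (M : ℕ) [NeZero M] (a : ZMod M), a ≠ 0 →
    MDiff (VFun M a) ∧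
    Fermat.Agent.H44.LaurentRel (VFun M a) (coeffEmb ℂ (vGen M a)) ∧
    (∀ γ : SL(2, ℤ), γ ∈ CongruenceSubgroup.Gamma0 M → ∀ z : ℍ,
      VFun M a (γ • z)
        = VFun M ((((γ : Matrix (Fin 2) (Fin 2) ℤ) 0 0 : ℤ) : ZMod M) * a) z) ∧
    Fermat.Agent.H94.EsA.HasModerateGrowth (VFun M a)

/-! ## ES1-THETA : eigenvectors modulo `ℓ` -/

/-- **ES1-THETA** (pure algebra, Mathlib only).  `B` a finitely generated abelian group, `T` a
commutative ring acting faithfully on `B`, `θ : T →+* k` a ring homomorphism to a field of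
characteristic `p > 0`.  Then there is a nonzero additive `w : B → k` with
`w (t • b) = θ t * w b`.  (Nakayama: `B ≠ 𝔪 B` for `𝔪 = ker θ`; `T/𝔪` is a finite field.) -/
def ThetaEigenStatement : Prop :=
  ∀ (B : Type) [AddCommGroup B] [Module.Finite ℤ B] (T : Type) [CommRing T] [Module T B]
    [FaithfulSMul T B] (k : Type) [Field k] (p : ℕ) [CharP k p], p.Prime →
    ∀ θ : T →+* k, ∃ w : B →+ k, w ≠ 0 ∧ ∀ (t : T) (b : B), w (t • b) = θ t * w b

/-! ## ES1-EPS : cyclotomic characters -/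

/-- **ES1-EPS.**  There is an involution `c ∈ G_ℚ` (a complex conjugation) such that for every
`n ≠ 0` there is a character `ε_n : G_ℚ → (ℤ/n)ˣ` of finite level, unramified outside `n`,
with `ε_n(Frob_ℓ) = ℓ` for `ℓ ∤ n` and `ε_n(c) = -1`. -/
def CycloCharGenStatement : Prop :=
  ∃ c : GalQ, c * c = 1 ∧ ∀ (n : ℕ) [NeZero n], ∃ ε : GalQ →* (ZMod n)ˣ,
    GaloisFactorsThroughFiniteLevel ε ∧ ε c = -1 ∧
    ∀ ℓ : ℕ, ℓ.Prime → ¬ ℓ ∣ n →
      ∀ A : ValuationSubring (AlgebraicClosure ℚ), A.LiesOverPrime ℓ →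
        (∀ σ ∈ A.inertiaSubgroupIn ℚ, ε σ = 1) ∧
        ∀ σ : GalQ, A.IsFrobeniusAt σ ℓ → ((ε σ : (ZMod n)ˣ) : ZMod n) = (ℓ : ZMod n)

end Fermat.Agent.H29.ES1

end
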