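import Mathlib
import Fermat.Prelude.Def_ModularCurve_HeckeOperatorTotal
import Fermat.Agent.H29.ES1.Defs

/-!
# P-ES1 : Hecke correspondences, generic in the level field `F₀ ⊆ ℚ((q))` (helper29)

Twin of the prelude modules `Def_ModularCurve_HeckeOperator`, `Def_ModularCurve_HeckeOperatorTotal`
with `modularFunctionFieldFull N`, `modularFunctionFieldFull (N * ℓ)` replaced by an arbitrary
intermediate field `F₀` and `heckeField F₀ ℓ = F₀ · V_ℓ(F₀)` (`V_ℓ : q ↦ q^ℓ`).

* `alphaGen L F₀ ℓ` : the inclusion, `betaGen L F₀ ℓ` : `q ↦ q^ℓ`;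
* `HeckeInputsGen L F₀ ℓ`, `heckeOperatorGen L F₀ ℓ` : the correspondence `α_* β^*` on `Pic⁰`
  (and `0` if the inputs fail), exactly as `ModularCurve.heckeOperatorAlong`.

For `F₀ = F1 M` this is `T_ℓ` up to a diamond operator (see `Interfaces`).
-/

set_option autoImplicit false

noncomputable section

namespace Fermat.Agent.H29.ES1

open ModularCurve AlgebraicCurve IntermediateField HahnSeries

section Supply

variable {L : Type*} [Field L] [Algebra ℚ L]

theorem es1_coeffMap_qExpand {R S : Type*} [CommRing R] [CommRing S] (f : R →+* S) (n : ℕ)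
    [NeZero n] (x : LaurentSeries R) : coeffMap f (qExpand R n x) = qExpand S n (coeffMap f x) := by
  ext k
  by_cases hk : (n : ℤ) ∣ k
  · obtain ⟨m, rfl⟩ := hk
    rw [coeffMap_coeff, qExpand_coeff_mul, qExpand_coeff_mul, coeffMap_coeff]
  · rw [coeffMap_coeff, qExpand_coeff_of_not_dvd n _ hk, qExpand_coeff_of_not_dvd n _ hk,
      map_zero]

theorem es1_coeffEmb_qExpand (L : Type*) [Field L] [Algebra ℚ L] (n : ℕ) [NeZero n]
    (x : LaurentSeries ℚ) : coeffEmb L (qExpand ℚ n x) = qExpand L n (coeffEmb L x) :=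
  es1_coeffMap_qExpand _ n x

variable (L) in
theorem es1_laurentBaseChange_mono {F₀ F₁ : IntermediateField ℚ (LaurentSeries ℚ)}
    (h : F₀ ≤ F₁) : laurentBaseChange L F₀ ≤ laurentBaseChange L F₁ := by
  rw [laurentBaseChange, IntermediateField.adjoin_le_iff]
  rintro _ ⟨y, hy, rfl⟩
  exact coeffEmb_mem_laurentBaseChange L (h hy)

theorem es1_qExpand_mem_laurentBaseChange {F₀ : IntermediateField ℚ (LaurentSeries ℚ)} (n : ℕ)
    [NeZero n] {F₁ : IntermediateField ℚ (LaurentSeries ℚ)} (hF : ∀ y ∈ F₀, qExpand ℚ n y ∈ F₁)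
    {x : LaurentSeries L} (hx : x ∈ laurentBaseChange L F₀) :
    qExpand L n x ∈ laurentBaseChange L F₁ := by
  rw [mem_laurentBaseChange_iff] at hx
  induction hx using Subfield.closure_induction with
  | mem y hy =>
      rcases hy with ⟨a, rfl⟩ | ⟨z, hz, rfl⟩
      · rw [algebraMap_laurentSeries_eq_single, qExpand_single, mul_zero,
          ← algebraMap_laurentSeries_eq_single]
        exact (laurentBaseChange L F₁).algebraMap_mem _
      · rw [← es1_coeffEmb_qExpand]
        exact coeffEmb_mem_laurentBaseChange L (hF z hz)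
  | one => simp
  | add x y _ _ hx hy => simpa using add_mem hx hy
  | neg x _ hx => simpa using neg_mem hx
  | inv x _ hx => simpa using inv_mem hx
  | mul x y _ _ hx hy => simpa using mul_mem hx hy

end Supply

variable {L : Type*} [Field L] [Algebra ℚ L]
variable (F₀ : IntermediateField ℚ (LaurentSeries ℚ)) (ℓ : ℕ) [NeZero ℓ]

/-- The compositum `F₀ · V_ℓ(F₀)` inside `ℚ((q))`, `V_ℓ : q ↦ q^ℓ`: the function field of the
Hecke correspondence of level `ℓ` over the curve with function field `F₀`. -/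
def heckeField : IntermediateField ℚ (LaurentSeries ℚ) :=
  IntermediateField.adjoin ℚ ((F₀ : Set (LaurentSeries ℚ)) ∪ (qExpand ℚ ℓ '' (F₀ : Set (LaurentSeries ℚ))))

theorem le_heckeField : F₀ ≤ heckeField F₀ ℓ := fun _ hx =>
  IntermediateField.subset_adjoin ℚ _ (Or.inl hx)

theorem qExpand_mem_heckeField {y : LaurentSeries ℚ} (hy : y ∈ F₀) :
    qExpand ℚ ℓ y ∈ heckeField F₀ ℓ :=
  IntermediateField.subset_adjoin ℚ _ (Or.inr ⟨y, hy, rfl⟩)

variable (L) in
/-- The degeneracy map `α` : the inclusion. -/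
def alphaGen :
    laurentBaseChange L F₀ →ₐ[L] laurentBaseChange L (heckeField F₀ ℓ) :=
  IntermediateField.inclusion (es1_laurentBaseChange_mono L (le_heckeField F₀ ℓ))

@[simp]
theorem coe_alphaGen (x : laurentBaseChange L F₀) :
    (alphaGen L F₀ ℓ x : LaurentSeries L) = (x : LaurentSeries L) :=
  IntermediateField.coe_inclusion _ x

variable (L) in
/-- The degeneracy map `β` : `q ↦ q^ℓ`, as a ring homomorphism. -/
def betaGenRingHom :
    laurentBaseChange L F₀ →+* laurentBaseChange L (heckeField F₀ ℓ) where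
  toFun x := ⟨qExpand L ℓ (x : LaurentSeries L),
    es1_qExpand_mem_laurentBaseChange ℓ
      (fun _ hy => qExpand_mem_heckeField F₀ ℓ hy) x.2⟩
  map_one' := Subtype.ext (map_one (qExpand L ℓ))
  map_mul' _ _ := Subtype.ext (map_mul (qExpand L ℓ) _ _)
  map_zero' := Subtype.ext (map_zero (qExpand L ℓ))
  map_add' _ _ := Subtype.ext (map_add (qExpand L ℓ) _ _)

@[simp]
theorem coe_betaGenRingHom (x : laurentBaseChange L F₀) :
    (betaGenRingHom L F₀ ℓ x : LaurentSeries L) = qExpand L ℓ (x : LaurentSeries L) :=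
  rfl

variable (L) in
/-- The degeneracy map `β` : `q ↦ q^ℓ`. -/
def betaGen :
    laurentBaseChange L F₀ →ₐ[L] laurentBaseChange L (heckeField F₀ ℓ) :=
  { betaGenRingHom L F₀ ℓ with
    commutes' := fun a => Subtype.ext <| by
      show qExpand L ℓ (algebraMap L (LaurentSeries L) a) = algebraMap L (LaurentSeries L) a
      rw [algebraMap_laurentSeries_eq_single, qExpand_single, mul_zero] }

@[simp]
theorem coe_betaGen (x : laurentBaseChange L F₀) :
    (betaGen L F₀ ℓ x : LaurentSeries L) = qExpand L ℓ (x : LaurentSeries L) :=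
  rfl

variable (L) in
/-- The inputs making the correspondence `α_* β^*` on `Pic⁰` well defined. -/
def HeckeInputsGen : Prop :=
  ∃ (_ : (alphaGen L F₀ ℓ).toRingHom.IsIntegral) (hβ : (betaGen L F₀ ℓ).toRingHom.IsIntegral)
    (_ : HasPrincipalDivisors L (laurentBaseChange L (heckeField F₀ ℓ)))
    (hfin : FiniteAlong L (alphaGen L F₀ ℓ)),
    FundamentalIdentityAlong L (betaGen L F₀ ℓ) hβ ∧
      NormFormulaAlong L (alphaGen L F₀ ℓ) hfin

open Classical in
variable (L) in
/-- **The Hecke correspondence `α_* β^*` on `Pic⁰(L · F₀)`** (twin of the prelude's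
`ModularCurve.heckeOperatorAlong`). -/
def heckeOperatorGen :
    Pic0 L (laurentBaseChange L F₀) →+ Pic0 L (laurentBaseChange L F₀) :=
  if h : HeckeInputsGen L F₀ ℓ then
    haveI := h.snd.snd.fst
    Pic0.correspondence (betaGen L F₀ ℓ) (alphaGen L F₀ ℓ) h.snd.fst h.fst
      h.snd.snd.snd.snd.1 h.snd.snd.snd.fst h.snd.snd.snd.snd.2
  else 0

variable {F₀ ℓ}

theorem heckeOperatorGen_eq (hα : (alphaGen L F₀ ℓ).toRingHom.IsIntegral)
    (hβ : (betaGen L F₀ ℓ).toRingHom.IsIntegral)
    [HasPrincipalDivisors L (laurentBaseChange L (heckeField F₀ ℓ))]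
    (hFI : FundamentalIdentityAlong L (betaGen L F₀ ℓ) hβ)
    (hfin : FiniteAlong L (alphaGen L F₀ ℓ))
    (hN : NormFormulaAlong L (alphaGen L F₀ ℓ) hfin) :
    heckeOperatorGen L F₀ ℓ
      = Pic0.correspondence (betaGen L F₀ ℓ) (alphaGen L F₀ ℓ) hβ hα hFI hfin hN := by
  have h : HeckeInputsGen L F₀ ℓ := ⟨hα, hβ, inferInstance, hfin, hFI, hN⟩
  rw [heckeOperatorGen, dif_pos h]

theorem heckeOperatorGen_of_not (h : ¬ HeckeInputsGen L F₀ ℓ) :
    heckeOperatorGen L F₀ ℓ = 0 := by
  rw [heckeOperatorGen, dif_neg h]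

end Fermat.Agent.H29.ES1

end
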