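import Mathlib
import Fermat.Prelude.Def_GaloisRep_Residual
import Fermat.Agent.H29.ES1.Hecke
import Fermat.Agent.H20.DS.Interfaces

/-!
# P-ES1 : the torsion package of `J₁(M)` — interfaces (helper29)

Twin of `Fermat.Agent.H22.ES.Interfaces` / `Fermat.Agent.H28.ES.Interface3` for the model
`F1 M` of `X₁(M)`.  `Prop`-valued statements and definitions only.

CONVENTIONS (checked against the analytic picture, see findings "P-ES1 DESIGN NOTE"):
* `DiamondData L M` : automorphisms `aut d` of `L · F1 M` over `L · F0(M)` with `aut d v_a = v_{d a}`;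
  analytically `aut d f = f ∘ γ` for `γ = [[α, β], [c, δ]] ∈ Γ₀(M)`, `α ≡ d`.
* `deltaTors M n d` : the action of `aut d` on `J₁(M)[n]`;  `diamTors M n d := deltaTors M n d⁻¹`
  (on the class of a form with nebentypus `ψ` — `h ∣ γ = ψ(δ) h` — `diamTors d` acts by `ψ d`).
* `heckeTors1 M n ℓ` : the correspondence `U_ℓ = α_* β^*` (`β : q ↦ q^ℓ`), which sends the class
  of `(1/n) div f` to the class of `(1/n) div (f(q^ℓ) ∏_b (aut ℓ f)(ζ^b q^{1/ℓ}))`;
  `TTors M n ℓ := U_ℓ ∘ diamTors ℓ` is the Hecke operator `T_ℓ`.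
* Eichler–Shimura: `Frob² - T_ℓ Frob + ℓ ⟨ℓ⟩ = 0` with `⟨ℓ⟩ = diamTors ℓ`.
-/

set_option autoImplicit false

noncomputable section

namespace Fermat.Agent.H29.ES1

open ModularCurve AlgebraicCurve
open scoped TensorProduct

/-! ## Diamond operators -/

/-- The generator `v_a` as an element of `L · F1 M`. -/
def vBar (L : Type*) [Field L] [Algebra ℚ L] (M : ℕ) [NeZero M] (a : (ZMod M)ˣ) :
    laurentBaseChange L (F1 M) :=
  ⟨coeffEmb L (vGen M (a : ZMod M)), coeffEmb_mem_laurentBaseChange L (vGen_mem_F1 M a)⟩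

/-- The diamond automorphisms of `L · F1 M`: they fix `L · F0(M)` and permute the `v_a`. -/
structure DiamondData (L : Type*) [Field L] [Algebra ℚ L] (M : ℕ) [NeZero M] where
  /-- the automorphisms -/
  aut : (ZMod M)ˣ →* (laurentBaseChange L (F1 M) ≃ₐ[L] laurentBaseChange L (F1 M))
  aut_full : ∀ (d : (ZMod M)ˣ) (x : laurentBaseChange L (F1 M)),
    (x : LaurentSeries L) ∈ laurentBaseChange L (modularFunctionFieldFull M) → aut d x = x
  aut_v : ∀ d a : (ZMod M)ˣ, aut d (vBar L M a) = vBar L M (d * a)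

/-- **ES1-DIAM.**  The diamond automorphisms exist over every field of characteristic zero. -/
def DiamondExistsStatement : Prop :=
  ∀ (L : Type) [Field L] [Algebra ℚ L] (M : ℕ) [NeZero M], 3 ≤ M → Nonempty (DiamondData L M)

open Classical in
/-- The diamond automorphisms of `L · F1 M` (trivial if they do not exist). -/
def diamondAut (L : Type*) [Field L] [Algebra ℚ L] (M : ℕ) [NeZero M] :
    (ZMod M)ˣ →* (laurentBaseChange L (F1 M) ≃ₐ[L] laurentBaseChange L (F1 M)) :=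
  if h : Nonempty (DiamondData L M) then h.some.aut else 1

variable (M : ℕ) [NeZero M]

/-- The action of the diamond automorphism `aut d` on `J₁(M)(ℚ̄)[n]`. -/
def deltaTors (n : ℕ) : (ZMod M)ˣ →* Module.End (ZMod n) (J1Tors M n) :=
  (SemilinearAut.torsionRep _ _ n).comp
    (SemilinearAut.ofAlgAut.comp (diamondAut (AlgebraicClosure ℚ) M))

/-- The diamond operator `⟨d⟩` on `J₁(M)(ℚ̄)[n]` : the action of `aut d⁻¹`. -/
def diamTors (n : ℕ) : (ZMod M)ˣ →* Module.End (ZMod n) (J1Tors M n) :=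
  (deltaTors M n).comp (MulEquiv.inv (ZMod M)ˣ).toMonoidHom

/-! ## Hecke operators on torsion -/

theorem heckeOperatorGen_mem_torsion (n ℓ : ℕ) [NeZero ℓ] {x : J1 M}
    (hx : x ∈ Pic0.torsion (AlgebraicClosure ℚ) (F1Bar M) n) :
    heckeOperatorGen (AlgebraicClosure ℚ) (F1 M) ℓ x
      ∈ Pic0.torsion (AlgebraicClosure ℚ) (F1Bar M) n := by
  rw [Pic0.mem_torsion] at hx ⊢
  rw [← map_zsmul, hx, map_zero]

/-- The correspondence `U_ℓ = α_* β^*` on `J₁(M)(ℚ̄)[n]`, as an additive map. -/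
def heckeTors1Hom (n ℓ : ℕ) [NeZero ℓ] : J1Tors M n →+ J1Tors M n :=
  AddMonoidHom.mk' (fun x => ⟨heckeOperatorGen (AlgebraicClosure ℚ) (F1 M) ℓ (x : J1 M),
    heckeOperatorGen_mem_torsion M n ℓ x.2⟩) (fun x y => Subtype.ext (by
      show heckeOperatorGen (AlgebraicClosure ℚ) (F1 M) ℓ ((x + y : J1Tors M n) : J1 M)
        = heckeOperatorGen (AlgebraicClosure ℚ) (F1 M) ℓ (x : J1 M)
          + heckeOperatorGen (AlgebraicClosure ℚ) (F1 M) ℓ (y : J1 M)
      rw [AddSubgroup.coe_add, map_add]))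

/-- The correspondence `U_ℓ = α_* β^*` on `J₁(M)(ℚ̄)[n]`. -/
def heckeTors1 (n ℓ : ℕ) [NeZero ℓ] : Module.End (ZMod n) (J1Tors M n) :=
  (heckeTors1Hom M n ℓ).toZModLinearMap n

theorem coe_heckeTors1 (n ℓ : ℕ) [NeZero ℓ] (x : J1Tors M n) :
    ((heckeTors1 M n ℓ x : J1Tors M n) : J1 M)
      = heckeOperatorGen (AlgebraicClosure ℚ) (F1 M) ℓ (x : J1 M) := rfl

open Classical in
/-- **The Hecke operator `T_ℓ = U_ℓ ∘ ⟨ℓ⟩`** on `J₁(M)(ℚ̄)[n]` (`0` if `ℓ` is not prime to `M`). -/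
def TTors (n ℓ : ℕ) : Module.End (ZMod n) (J1Tors M n) :=
  if h : Nat.Coprime ℓ M ∧ ℓ ≠ 0 then
    haveI : NeZero ℓ := ⟨h.2⟩
    heckeTors1 M n ℓ * diamTors M n (ZMod.unitOfCoprime ℓ h.1)
  else 0

/-- `⟨ℓ⟩` on `J₁(M)(ℚ̄)[n]` for a natural number `ℓ` (`1` if `ℓ` is not prime to `M`). -/
def diamNat (n ℓ : ℕ) : Module.End (ZMod n) (J1Tors M n) :=
  open Classical in
  if h : Nat.Coprime ℓ M then diamTors M n (ZMod.unitOfCoprime ℓ h) else 1

/-! ## The torsion package -/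

/-- **J1-FIN.**  `J₁(M)(ℚ̄)[n]` is finite. -/
def J1TorsFiniteStatement : Prop :=
  ∀ (M : ℕ) [NeZero M], 5 ≤ M → ∀ n : ℕ, 0 < n → Finite (J1Tors M n)

/-- **J1-SMOOTH.**  Every torsion point of `J₁(M)(ℚ̄)` is fixed by an open subgroup of `G_ℚ`. -/
def J1SmoothStatement : Prop :=
  ∀ (M : ℕ) [NeZero M], 5 ≤ M → ∀ x : J1 M, (∃ m : ℕ, 0 < m ∧ m • x = 0) →
    ∃ L : IntermediateField ℚ (AlgebraicClosure ℚ), FiniteDimensional ℚ L ∧
      ∀ σ : GalQ, (∀ y ∈ L, σ y = y) → σ • x = x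

/-- **J1-GAL.**  `U_ℓ` and the diamond operators commute with `G_ℚ` on torsion. -/
def J1GalHeckeStatement : Prop :=
  ∀ (M : ℕ) [NeZero M], 5 ≤ M → ∀ n : ℕ, 0 < n → ∀ σ : GalQ,
    (∀ (ℓ : ℕ) [NeZero ℓ], ℓ.Prime → ¬ ℓ ∣ M →
      heckeTors1 M n ℓ * J1.torsionGaloisRep M n σ
        = J1.torsionGaloisRep M n σ * heckeTors1 M n ℓ) ∧
    (∀ d : (ZMod M)ˣ,
      deltaTors M n d * J1.torsionGaloisRep M n σ
        = J1.torsionGaloisRep M n σ * deltaTors M n d) ∧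
    (∀ (ℓ : ℕ) [NeZero ℓ] (d : (ZMod M)ˣ), ℓ.Prime → ¬ ℓ ∣ M →
      heckeTors1 M n ℓ * deltaTors M n d = deltaTors M n d * heckeTors1 M n ℓ)

/-- **J1-U.**  Inertia at `p ∤ M n` acts trivially on `J₁(M)(ℚ̄)[n]`. -/
def J1UnramifiedStatement : Prop :=
  ∀ (M : ℕ) [NeZero M], 5 ≤ M → ∀ n : ℕ, 0 < n → ∀ p : ℕ, p.Prime → ¬ p ∣ M * n →
    ∀ A : ValuationSubring (AlgebraicClosure ℚ), A.LiesOverPrime p →
      ∀ σ ∈ A.inertiaSubgroupIn ℚ, J1.torsionGaloisRep M n σ = 1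

/-- **J1-ES.**  The Eichler–Shimura relation `Frob² - T_p Frob + p ⟨p⟩ = 0` on `J₁(M)(ℚ̄)[n]`
at Frobenius elements of primes `p ∤ M n`. -/
def J1EichlerShimuraStatement : Prop :=
  ∀ (M : ℕ) [NeZero M], 5 ≤ M → ∀ n : ℕ, 0 < n → ∀ p : ℕ, p.Prime → ¬ p ∣ M * n →
    ∀ A : ValuationSubring (AlgebraicClosure ℚ), A.LiesOverPrime p →
      ∀ σ : GalQ, A.IsFrobeniusAt σ p →
        J1.torsionGaloisRep M n σ * J1.torsionGaloisRep M n σ
          - TTors M n p * J1.torsionGaloisRep M n σ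
          + (p : ZMod n) • diamNat M n p = 0

/-- **J1-EIG.**  Occurrence: the eigen-system modulo `φ` of a weight-two form on `Γ₁(M)` with
nebentypus `ψ` which is an eigenform modulo `φ` occurs in `k ⊗ J₁(M)(ℚ̄)[ℓ]`: there is a nonzero
vector on which `T_p` (`p ∤ M ℓ`) acts by `abar p` and `⟨d⟩` by the reduction of `ψ d`. -/
def J1EigenStatement : Prop :=
  ∀ (M : ℕ) [NeZero M], 5 ≤ M →
    ∀ (ψ : DirichletCharacter ℂ M) (h : CuspForm (CongruenceSubgroup.Gamma1 M) 2)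
      (ℓ : ℕ), ℓ.Prime → ∀ (k : Type) [Field k] [CharP k ℓ]
      (φ : Fermat.Agent.H20.DS.Zbar →+* k) (abar dbar : ℕ → k),
      Fermat.Agent.H20.DS.IsModEigen ψ h φ abar dbar →
      ∃ w : k ⊗[ℤ] (J1Tors M ℓ), w ≠ 0 ∧
        (∀ p : ℕ, p.Prime → ¬ p ∣ M * ℓ →
          ((TTors M ℓ p).restrictScalars ℤ).baseChange k w = abar p • w) ∧
        (∀ d : (ZMod M)ˣ, ∃ e : k, Fermat.Agent.H20.DS.Red φ (ψ (d : ZMod M)) e ∧
          ((diamTors M ℓ d).restrictScalars ℤ).baseChange k w = e • w)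

/-- **The Eichler–Shimura space** for `Γ₁(M)` (twin of `H28.EichlerShimuraSpaceStatement`):
a nonzero finite-dimensional representation of `G_ℚ` of finite level, unramified outside `M ℓ`,
on which Frobenius elements satisfy `σ² - abar p σ + dbar p = 0`. -/
def EichlerShimuraSpace1Statement : Prop :=
  ∀ (M : ℕ) [NeZero M], 5 ≤ M →
    ∀ (ψ : DirichletCharacter ℂ M) (h : CuspForm (CongruenceSubgroup.Gamma1 M) 2)
      (ℓ : ℕ), ℓ.Prime → ∀ (k : Type) [Field k] [CharP k ℓ]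
      (φ : Fermat.Agent.H20.DS.Zbar →+* k) (abar dbar : ℕ → k),
      Fermat.Agent.H20.DS.IsModEigen ψ h φ abar dbar →
      ∃ (W : Type) (_ : AddCommGroup W) (_ : Module k W) (ρ : GalQ →* Module.End k W),
        Module.Finite k W ∧ Nontrivial W ∧ GaloisFactorsThroughFiniteLevel ρ ∧
        (∀ p : ℕ, p.Prime → ¬ p ∣ M * ℓ →
          ∀ A : ValuationSubring (AlgebraicClosure ℚ), A.LiesOverPrime p →
            ∀ σ ∈ A.inertiaSubgroupIn ℚ, ρ σ = 1) ∧
        (∀ p : ℕ, p.Prime → ¬ p ∣ M * ℓ →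
          ∀ A : ValuationSubring (AlgebraicClosure ℚ), A.LiesOverPrime p →
            ∀ σ : GalQ, A.IsFrobeniusAt σ p →
              ρ σ * ρ σ - abar p • ρ σ + dbar p • (1 : Module.End k W) = 0)

/-- The target with `M ≥ 5` (the general case follows by raising the level). -/
def Gamma1ResidualStatement5 : Prop :=
  ∀ (M : ℕ) [NeZero M], 5 ≤ M →
    ∀ (ψ : DirichletCharacter ℂ M) (h : CuspForm (CongruenceSubgroup.Gamma1 M) 2)
      (ℓ : ℕ), ℓ.Prime → ∀ (k : Type) [Field k] [CharP k ℓ]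
      (φ : Fermat.Agent.H20.DS.Zbar →+* k) (abar dbar : ℕ → k),
      Fermat.Agent.H20.DS.IsModEigen ψ h φ abar dbar →
      ∃ ρ : ResidualGaloisRep k, ∀ p : ℕ, p.Prime → ¬ p ∣ M * ℓ →
        ρ.IsUnramifiedAt p ∧
        ∀ A : ValuationSubring (AlgebraicClosure ℚ), A.LiesOverPrime p →
          ∀ σ : GalQ, A.IsFrobeniusAt σ p →
            LinearMap.charpoly (ρ.ρ σ)
              = Polynomial.X ^ 2 - Polynomial.C (abar p) * Polynomial.X + Polynomial.C (dbar p)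

/-! ## The key lemma and the Gauss normal form, generic in the level field -/

/-- **KEY LEMMA** for the level field `F₀` at the prime `p` (twin of
`Fermat.Agent.H22.ES.KeyLemmaStatement`, which is the case `F₀ = modularFunctionFieldFull N`). -/
def KeyLemmaGenStatement (F₀ : IntermediateField ℚ (LaurentSeries ℚ)) (p : ℕ) : Prop :=
  ∀ (A : ValuationSubring (AlgebraicClosure ℚ)), A.LiesOverPrime p →
    ∀ (m : ℕ), 0 < m → ¬ p ∣ m →
      ∀ (a b : LaurentSeries A)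
        (ha : coeffMap A.subtype a ∈ laurentBaseChange (AlgebraicClosure ℚ) F₀)
        (hb : coeffMap A.subtype b ∈ laurentBaseChange (AlgebraicClosure ℚ) F₀),
        coeffMap (IsLocalRing.residue A) a = coeffMap (IsLocalRing.residue A) b →
        coeffMap (IsLocalRing.residue A) a ≠ 0 →
        (∀ P : Place (AlgebraicClosure ℚ) (laurentBaseChange (AlgebraicClosure ℚ) F₀),
          (m : ℤ) ∣ P.ord (⟨coeffMap A.subtype a, ha⟩ : laurentBaseChange (AlgebraicClosure ℚ) F₀)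
            - P.ord (⟨coeffMap A.subtype b, hb⟩ : laurentBaseChange (AlgebraicClosure ℚ) F₀)) →
        ∃ w : laurentBaseChange (AlgebraicClosure ℚ) F₀,
          w ^ m * (⟨coeffMap A.subtype b, hb⟩ : laurentBaseChange (AlgebraicClosure ℚ) F₀)
            = (⟨coeffMap A.subtype a, ha⟩ : laurentBaseChange (AlgebraicClosure ℚ) F₀)

/-- **ES1-KL.**  The key lemma for `X₁(M)` at all primes `p ∤ M`. -/
def KeyLemma1Statement : Prop :=
  ∀ (M : ℕ) [NeZero M], 5 ≤ M → ∀ p : ℕ, p.Prime → ¬ p ∣ M → KeyLemmaGenStatement (F1 M) p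

/-- **Gauss normal form** for the level field `F₀` (twin of
`Fermat.Agent.H22.ES.GaussNormalFormStatement`). -/
def GaussNormalFormGenStatement (F₀ : IntermediateField ℚ (LaurentSeries ℚ)) : Prop :=
  ∀ (A : ValuationSubring (AlgebraicClosure ℚ)) (p : ℕ), p.Prime → A.LiesOverPrime p →
    ∀ f : laurentBaseChange (AlgebraicClosure ℚ) F₀, f ≠ 0 →
      ∃ (c : AlgebraicClosure ℚ) (a b : LaurentSeries A)
        (ha : coeffMap A.subtype a ∈ laurentBaseChange (AlgebraicClosure ℚ) F₀)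
        (hb : coeffMap A.subtype b ∈ laurentBaseChange (AlgebraicClosure ℚ) F₀),
        c ≠ 0 ∧ coeffMap (IsLocalRing.residue A) a ≠ 0 ∧
        coeffMap (IsLocalRing.residue A) b ≠ 0 ∧
        f * (⟨coeffMap A.subtype b, hb⟩ : laurentBaseChange (AlgebraicClosure ℚ) F₀)
          = algebraMap (AlgebraicClosure ℚ) (laurentBaseChange (AlgebraicClosure ℚ) F₀) c
            * (⟨coeffMap A.subtype a, ha⟩ : laurentBaseChange (AlgebraicClosure ℚ) F₀)

/-- **ES1-GNF.**  Gauss normal form for `X₁(M)`. -/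
def GaussNormalForm1Statement : Prop :=
  ∀ (M : ℕ) [NeZero M], GaussNormalFormGenStatement (F1 M)

end Fermat.Agent.H29.ES1

end
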