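import Mathlib
import Fermat.Agent.H23.ES1A.Basic
import Fermat.Agent.H29.ES1.Interfaces
import Fermat.Agent.H29.ES1.GenInterfaces

/-!
# P-ES1 : the model `(⟨Γ₁(M), -1⟩, F1C M, R1 M, j)` for helper23's generic ES1-A (helper29)

`Model1Statement` : the model is modular in the sense of `Fermat.Agent.H23.ES1A.Model.IsModular`
(row ES1-MODEL).
-/

set_option autoImplicit false

noncomputable section

open UpperHalfPlane ModularCurve
open scoped MatrixGroups

namespace Fermat.Agent.H29.ES1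

/-- `⟨Γ₁(M), -1⟩`. -/
def gamma1pm (M : ℕ) : Subgroup SL(2, ℤ) :=
  CongruenceSubgroup.Gamma1 M ⊔ Subgroup.zpowers (-1 : SL(2, ℤ))

variable (M : ℕ) [NeZero M]

/-- The series of `j(q^d)`, `d ∣ M`, as an element of `F1C M`. -/
def jC1 (d : ℕ) [NeZero d] (hd : d ∣ M) : F1C M :=
  ⟨coeffEmb ℂ (qExpand ℚ d jq), coeffEmb_mem_laurentBaseChange ℂ (jqd_mem_F1 M hd)⟩

/-- The generators of the "holomorphic" subalgebra: the `j(q^d)` and the `v_a`. -/
def R1Gens : Set (F1C M) :=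
  {x | ∃ (d : ℕ) (_ : NeZero d) (hd : d ∣ M), x = jC1 M d hd} ∪
    {x | ∃ a : (ZMod M)ˣ, x = vBar ℂ M a}

/-- The `ℂ`-subalgebra of `F1C M` generated by the `j(q^d)` and the `v_a`. -/
def R1 : Subalgebra ℂ (F1C M) := Algebra.adjoin ℂ (R1Gens M)

/-- The model of `X₁(M)` over `ℂ`. -/
def model1 : Fermat.Agent.H23.ES1A.Model where
  Γ := gamma1pm M
  F := F1C M
  R := R1 M
  j := jC1 M 1 (one_dvd M)

/-- **ES1-MODEL.**  The model of `X₁(M)` is modular (`M ≥ 5`). -/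
def Model1Statement : Prop :=
  ∀ (M : ℕ) [NeZero M], 5 ≤ M → (model1 M).IsModular

end Fermat.Agent.H29.ES1

end
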