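import Fermat.Agent.H29.ES1.Wiring
import Fermat.Agent.H12.ES1.HeckeInputsGen
import Fermat.Agent.H21.Es1C.Interfaces

/-!
# P-ES1 / ES1-B : the descent statement for `J₁(M)` (row 739 ES1-C-DESC, helper29)

`descent1Statement : Fermat.Agent.H21.Es1C.Descent1Statement`, unconditional: the descent
homomorphism `J₁(M)(ℚ̄) → Pic⁰(F1C M)` is injective, onto the torsion, and compatible with the
Hecke correspondence `α_* β^*` and with the diamond automorphisms.
-/

set_option autoImplicit false
set_option maxSynthPendingDepth 3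
set_option synthInstance.maxHeartbeats 400000

noncomputable section

namespace Fermat.Agent.H29.ES1

open AlgebraicCurve ModularCurve

/-- **ES1-C1** for `X₁(M)`: the Hecke inputs over every algebraically closed field of
characteristic zero. -/
theorem heckeInputs1 (L : Type*) [Field L] [Algebra ℚ L] [IsAlgClosed L] (M : ℕ) [NeZero M]
    (hM : 1 < M) (p : ℕ) [NeZero p] : HeckeInputsGen L (F1 M) p := by
  have h := Fermat.Agent.H69.ES1.finiteDimensional_F1_rat vFun M hM
  unfold Fermat.Agent.H69.ES1.FiniteOverJ at h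
  refine Fermat.Agent.H12.ES1.heckeInputsGen_of_finiteDimensional (F1 M) (jq_mem_F1 M) L p ?_
  convert h <;> exact Subsingleton.elim _ _

/-- The coefficientwise constant field extension of the Hecke field of `X₁(M)`. -/
def constExtH1 (M : ℕ) [NeZero M] (hM : 1 < M) (p : ℕ) [NeZero p] :
    Fermat.Agent.H29.ConstExt (AlgebraicClosure ℚ) ℂ
      ↥(laurentBaseChange (AlgebraicClosure ℚ) (heckeField (F1 M) p))
      ↥(laurentBaseChange ℂ (heckeField (F1 M) p)) :=
  Fermat.Agent.H69.ES1.constExtOfFinite iotaC (heckeField (F1 M) p)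
    (Fermat.Agent.H69.ES1.jq_mem_heckeField (jq_mem_F1 M) p)
    (Fermat.Agent.H69.ES1.finiteDimensional_heckeField_F1 vFun M hM p (AlgebraicClosure ℚ))

/-- The descent homomorphism `J₁(M)(ℚ̄) → Pic⁰(F1C M)`. -/
def descent1 (M : ℕ) [NeZero M] (hM : 1 < M) : J1 M →+ Pic0 ℂ ↥(F1C M) :=
  descentL (F₀ := F1 M) (constExt1 M hM)

theorem descent1_injective (M : ℕ) [NeZero M] (hM : 1 < M) :
    Function.Injective (descent1 M hM) :=
  descentL_injective (F₀ := F1 M) _ (constExt1_isCoeffwise M hM)

theorem descent1_hecke (M : ℕ) [NeZero M] (hM : 1 < M) (p : ℕ) [NeZero p] (x : J1 M) :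
    descent1 M hM (heckeOperatorGen (AlgebraicClosure ℚ) (F1 M) p x)
      = heckeOperatorGen ℂ (F1 M) p (descent1 M hM x) :=
  descentL_hecke (F₀ := F1 M) (constExt1 M hM) p (constExtH1 M hM p)
    (constExt1_isCoeffwise M hM) (fun _ => rfl) rfl
    (heckeInputs1 (AlgebraicClosure ℚ) M hM p) (heckeInputs1 ℂ M hM p) x

/-- **ES1-C-DESC** (row 739), unconditional. -/
theorem descent1Statement : Fermat.Agent.H21.Es1C.Descent1Statement := by
  intro M _ hM
  have hM1 : 1 < M := by omega
  refine ⟨descent1 M hM1, descent1_injective M hM1, ?_, ?_, ?_⟩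
  · intro m hm z hz
    have hz' : z ∈ Pic0.torsion ℂ ↥(F1C M) m := by
      rw [Pic0.mem_torsion]
      exact_mod_cast hz
    obtain ⟨z₀, -, h⟩ := descentL_surjOn_torsion (F₀ := F1 M) (constExt1 M hM1)
      (constExt1_isCoeffwise M hM1) hm (finite_torsion_F1C M hM hm) z hz'
    exact ⟨z₀, h⟩
  · intro p _ _ _ m _ x _
    exact descent1_hecke M hM1 p x
  · intro d x
    exact descent1_diamond' M hM d x

end Fermat.Agent.H29.ES1

end
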