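import Mathlib
import Fermat.Prelude.Def_ModularCurve_ArithmeticGalois

/-!
# P-ES1 (helper29): ring homomorphisms out of a Laurent base change are determined by their
values on the constants and on the generators

`ringHom_ext_lbc` : two ring homomorphisms `laurentBaseChange L (adjoin ℚ S) →+* T` (`T` a field)
which agree on the constants `L` and on the series `coeffEmb L s`, `s ∈ S`, are equal.
Used for: uniqueness of the diamond automorphisms, their Galois equivariance, compatibility of
the diamond automorphisms over `ℚ̄` and over `ℂ`.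
-/

set_option autoImplicit false

noncomputable section

namespace Fermat.Agent.H29.ES1

open ModularCurve IntermediateField

variable {L : Type*} [Field L] [Algebra ℚ L]

theorem coeffEmb_algebraMap_rat (q : ℚ) :
    coeffEmb L (algebraMap ℚ (LaurentSeries ℚ) q)
      = algebraMap L (LaurentSeries L) (algebraMap ℚ L q) := by
  rw [coeffEmb, algebraMap_laurentSeries_eq_single, algebraMap_laurentSeries_eq_single,
    coeffMap_single]

/-- Two ring homomorphisms out of `L · ℚ(S)` agreeing on `L` and on `S` agree on `ℚ(S)`. -/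
theorem ringHom_eq_on_coeffEmb (S : Set (LaurentSeries ℚ)) {T : Type*} [Field T]
    (f g : ↥(laurentBaseChange L (IntermediateField.adjoin ℚ S)) →+* T)
    (hc : ∀ a : L, f (algebraMap L _ a) = g (algebraMap L _ a))
    (hS : ∀ (s : LaurentSeries ℚ) (hs : s ∈ S),
      f ⟨coeffEmb L s, coeffEmb_mem_laurentBaseChange L (IntermediateField.subset_adjoin ℚ S hs)⟩
        = g ⟨coeffEmb L s,
            coeffEmb_mem_laurentBaseChange L (IntermediateField.subset_adjoin ℚ S hs)⟩)
    (y : LaurentSeries ℚ) (hy : y ∈ IntermediateField.adjoin ℚ S) :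
    f ⟨coeffEmb L y, coeffEmb_mem_laurentBaseChange L hy⟩
      = g ⟨coeffEmb L y, coeffEmb_mem_laurentBaseChange L hy⟩ := by
  induction hy using IntermediateField.adjoin_induction with
  | mem s hs => exact hS s hs
  | algebraMap q =>
      have e : (⟨coeffEmb L (algebraMap ℚ (LaurentSeries ℚ) q),
          coeffEmb_mem_laurentBaseChange L
            ((IntermediateField.adjoin ℚ S).algebraMap_mem q)⟩ :
          ↥(laurentBaseChange L (IntermediateField.adjoin ℚ S)))
          = algebraMap L _ (algebraMap ℚ L q) :=
        Subtype.ext (coeffEmb_algebraMap_rat q)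
      rw [e, hc]
  | add x y hx hy ihx ihy =>
      have e : (⟨coeffEmb L (x + y), coeffEmb_mem_laurentBaseChange L (add_mem hx hy)⟩ :
          ↥(laurentBaseChange L (IntermediateField.adjoin ℚ S)))
          = ⟨coeffEmb L x, coeffEmb_mem_laurentBaseChange L hx⟩
            + ⟨coeffEmb L y, coeffEmb_mem_laurentBaseChange L hy⟩ :=
        Subtype.ext (map_add (coeffEmb L) x y)
      rw [e, map_add, map_add, ihx, ihy]
  | inv x hx ihx =>
      have e : (⟨coeffEmb L x⁻¹, coeffEmb_mem_laurentBaseChange L (inv_mem hx)⟩ :
          ↥(laurentBaseChange L (IntermediateField.adjoin ℚ S)))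
          = (⟨coeffEmb L x, coeffEmb_mem_laurentBaseChange L hx⟩ :
              ↥(laurentBaseChange L (IntermediateField.adjoin ℚ S)))⁻¹ :=
        Subtype.ext (map_inv₀ (coeffEmb L) x)
      rw [e, map_inv₀, map_inv₀, ihx]
  | mul x y hx hy ihx ihy =>
      have e : (⟨coeffEmb L (x * y), coeffEmb_mem_laurentBaseChange L (mul_mem hx hy)⟩ :
          ↥(laurentBaseChange L (IntermediateField.adjoin ℚ S)))
          = ⟨coeffEmb L x, coeffEmb_mem_laurentBaseChange L hx⟩
            * ⟨coeffEmb L y, coeffEmb_mem_laurentBaseChange L hy⟩ :=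
        Subtype.ext (map_mul (coeffEmb L) x y)
      rw [e, map_mul, map_mul, ihx, ihy]

/-- **Extensionality.**  Two ring homomorphisms out of `L · ℚ(S)` into a field which agree on
the constants and on the generators are equal. -/
theorem ringHom_ext_lbc (S : Set (LaurentSeries ℚ)) {T : Type*} [Field T]
    (f g : ↥(laurentBaseChange L (IntermediateField.adjoin ℚ S)) →+* T)
    (hc : ∀ a : L, f (algebraMap L _ a) = g (algebraMap L _ a))
    (hS : ∀ (s : LaurentSeries ℚ) (hs : s ∈ S),
      f ⟨coeffEmb L s, coeffEmb_mem_laurentBaseChange L (IntermediateField.subset_adjoin ℚ S hs)⟩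
        = g ⟨coeffEmb L s,
            coeffEmb_mem_laurentBaseChange L (IntermediateField.subset_adjoin ℚ S hs)⟩) :
    f = g := by
  have key : ∀ (x : LaurentSeries L)
      (hx : x ∈ Subfield.closure (Set.range (algebraMap L (LaurentSeries L)) ∪
          (⇑(coeffEmb L) '' ((IntermediateField.adjoin ℚ S : IntermediateField ℚ _) :
            Set (LaurentSeries ℚ))))),
      f ⟨x, mem_laurentBaseChange_iff.mpr hx⟩ = g ⟨x, mem_laurentBaseChange_iff.mpr hx⟩ := by
    intro x hx
    induction hx using Subfield.closure_induction with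
    | mem y hy =>
        rcases hy with ⟨a, rfl⟩ | ⟨z, hz, rfl⟩
        · exact hc a
        · exact ringHom_eq_on_coeffEmb S f g hc hS z hz
    | one =>
        have e : (⟨1, mem_laurentBaseChange_iff.mpr (one_mem _)⟩ :
            ↥(laurentBaseChange L (IntermediateField.adjoin ℚ S))) = 1 := rfl
        rw [e, map_one, map_one]
    | add x y hx hy ihx ihy =>
        have e : (⟨x + y, mem_laurentBaseChange_iff.mpr (add_mem hx hy)⟩ :
            ↥(laurentBaseChange L (IntermediateField.adjoin ℚ S)))
            = ⟨x, mem_laurentBaseChange_iff.mpr hx⟩ + ⟨y, mem_laurentBaseChange_iff.mpr hy⟩ := rfl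
        rw [e, map_add, map_add, ihx, ihy]
    | neg x hx ihx =>
        have e : (⟨-x, mem_laurentBaseChange_iff.mpr (neg_mem hx)⟩ :
            ↥(laurentBaseChange L (IntermediateField.adjoin ℚ S)))
            = -⟨x, mem_laurentBaseChange_iff.mpr hx⟩ := rfl
        rw [e, map_neg, map_neg, ihx]
    | inv x hx ihx =>
        have e : (⟨x⁻¹, mem_laurentBaseChange_iff.mpr (inv_mem hx)⟩ :
            ↥(laurentBaseChange L (IntermediateField.adjoin ℚ S)))
            = (⟨x, mem_laurentBaseChange_iff.mpr hx⟩ :
                ↥(laurentBaseChange L (IntermediateField.adjoin ℚ S)))⁻¹ := rfl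
        rw [e, map_inv₀, map_inv₀, ihx]
    | mul x y hx hy ihx ihy =>
        have e : (⟨x * y, mem_laurentBaseChange_iff.mpr (mul_mem hx hy)⟩ :
            ↥(laurentBaseChange L (IntermediateField.adjoin ℚ S)))
            = ⟨x, mem_laurentBaseChange_iff.mpr hx⟩ * ⟨y, mem_laurentBaseChange_iff.mpr hy⟩ := rfl
        rw [e, map_mul, map_mul, ihx, ihy]
  ext ⟨x, hx⟩
  exact key x (mem_laurentBaseChange_iff.mp hx)

end Fermat.Agent.H29.ES1

end
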