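import Fermat.Agent.H29.ES1.DescentGen
import Fermat.Agent.H29.ES1.LbcExt
import Fermat.Agent.H29.ES1.Interfaces
import Fermat.Agent.H33.ESB.LaurentBC
import Fermat.Agent.H4.ESB.GaloisDataLaurent

/-!
# P-ES1 / ES1-B (helper29): descent `ℚ̄ → ℂ` for Laurent base changes of a level field

For a level field `F₀ ⊆ ℚ((q))` and a coefficientwise constant field extension
`E : ConstExt ℚ̄ ℂ (ℚ̄ · F₀) (ℂ · F₀)`:

* `descentL E` : `Pic0 (ℚ̄ · F₀) →+ Pic0 (ℂ · F₀)`, injective, bijective on `m`-torsion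
  (when the latter is finite over `ℂ`);
* `descentL_hecke` : compatibility with the Hecke correspondence `heckeOperatorGen`;
* `descent1_diamond` : compatibility with the diamond operators (`F₀ = F1 M`);
* `diamondData_aut_unique`, `diamond_bc_compat` : uniqueness of diamond automorphisms.
-/

set_option autoImplicit false
set_option linter.style.haveILetI false

noncomputable section

open AlgebraicCurve IntermediateField ModularCurve

namespace Fermat.Agent.H29.ES1

open Fermat.Agent.H29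

/-- A constant field extension of Laurent base changes is *coefficientwise* if `bc` applies
`ι` to the coefficients. -/
def IsCoeffwise {F₀ : IntermediateField ℚ (LaurentSeries ℚ)}
    (E : ConstExt (AlgebraicClosure ℚ) ℂ ↥(laurentBaseChange (AlgebraicClosure ℚ) F₀)
      ↥(laurentBaseChange ℂ F₀)) : Prop :=
  ∀ f : ↥(laurentBaseChange (AlgebraicClosure ℚ) F₀),
    ((E.bc f : ↥(laurentBaseChange ℂ F₀)) : LaurentSeries ℂ)
      = coeffMap E.ι (f : LaurentSeries (AlgebraicClosure ℚ))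

section Level

variable {F₀ : IntermediateField ℚ (LaurentSeries ℚ)}
variable (E : ConstExt (AlgebraicClosure ℚ) ℂ ↥(laurentBaseChange (AlgebraicClosure ℚ) F₀)
  ↥(laurentBaseChange ℂ F₀))

/-- Galois data of a coefficientwise constant field extension (helper4). -/
def galoisDataL (hE : IsCoeffwise E) : GaloisData E :=
  (Fermat.Agent.H4.ESB.exists_galoisData (F₀ := F₀) E hE).choose

/-- **The descent homomorphism** for a level field. -/
def descentL : Pic0 (AlgebraicClosure ℚ) ↥(laurentBaseChange (AlgebraicClosure ℚ) F₀) →+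
    Pic0 ℂ ↥(laurentBaseChange ℂ F₀) :=
  descentA E

theorem descentL_injective (hE : IsCoeffwise E) : Function.Injective (descentL E) :=
  descentA_injective E (galoisDataL E hE)

theorem descentL_mem_torsion {m : ℕ}
    {z : Pic0 (AlgebraicClosure ℚ) ↥(laurentBaseChange (AlgebraicClosure ℚ) F₀)}
    (hz : z ∈ Pic0.torsion (AlgebraicClosure ℚ) ↥(laurentBaseChange (AlgebraicClosure ℚ) F₀) m) :
    descentL E z ∈ Pic0.torsion ℂ ↥(laurentBaseChange ℂ F₀) m :=
  descentA_mem_torsion E hz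

theorem descentL_surjOn_torsion (hE : IsCoeffwise E) {m : ℕ} (hm : 0 < m)
    (hfin : Finite (Pic0.torsion ℂ ↥(laurentBaseChange ℂ F₀) m))
    (z : Pic0 ℂ ↥(laurentBaseChange ℂ F₀))
    (hz : z ∈ Pic0.torsion ℂ ↥(laurentBaseChange ℂ F₀) m) :
    ∃ z₀ : Pic0 (AlgebraicClosure ℚ) ↥(laurentBaseChange (AlgebraicClosure ℚ) F₀),
      z₀ ∈ Pic0.torsion (AlgebraicClosure ℚ) ↥(laurentBaseChange (AlgebraicClosure ℚ) F₀) m ∧
      descentL E z₀ = z :=
  descentA_surjOn_torsion E (galoisDataL E hE) hm hfin z hz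

/-- Finiteness of torsion descends from `ℂ` to `ℚ̄`. -/
theorem finite_torsion_of_finite (hE : IsCoeffwise E) {m : ℕ}
    (hfin : Finite (Pic0.torsion ℂ ↥(laurentBaseChange ℂ F₀) m)) :
    Finite (Pic0.torsion (AlgebraicClosure ℚ) ↥(laurentBaseChange (AlgebraicClosure ℚ) F₀) m) := by
  let g : Pic0.torsion (AlgebraicClosure ℚ) ↥(laurentBaseChange (AlgebraicClosure ℚ) F₀) m →
      Pic0.torsion ℂ ↥(laurentBaseChange ℂ F₀) m :=
    fun z => ⟨descentL E z.1, descentL_mem_torsion E z.2⟩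
  refine Finite.of_injective g fun a b hab => ?_
  exact Subtype.ext (descentL_injective E hE (congrArg Subtype.val hab))

/-- The descent isomorphism on `m`-torsion. -/
def descentTorsionEquivL (hE : IsCoeffwise E) {m : ℕ} (hm : 0 < m)
    (hfin : Finite (Pic0.torsion ℂ ↥(laurentBaseChange ℂ F₀) m)) :
    Pic0.torsion (AlgebraicClosure ℚ) ↥(laurentBaseChange (AlgebraicClosure ℚ) F₀) m ≃+
      Pic0.torsion ℂ ↥(laurentBaseChange ℂ F₀) m :=
  descentTorsionEquivA E (galoisDataL E hE) hm hfin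

@[simp]
theorem coe_descentTorsionEquivL (hE : IsCoeffwise E) {m : ℕ} (hm : 0 < m)
    (hfin : Finite (Pic0.torsion ℂ ↥(laurentBaseChange ℂ F₀) m))
    (z : Pic0.torsion (AlgebraicClosure ℚ) ↥(laurentBaseChange (AlgebraicClosure ℚ) F₀) m) :
    ((descentTorsionEquivL E hE hm hfin z : Pic0.torsion ℂ ↥(laurentBaseChange ℂ F₀) m) :
        Pic0 ℂ ↥(laurentBaseChange ℂ F₀))
      = descentL E (z : Pic0 (AlgebraicClosure ℚ) ↥(laurentBaseChange (AlgebraicClosure ℚ) F₀)) :=
  rfl

/-! ### Hecke correspondences -/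

variable (ℓ : ℕ) [NeZero ℓ]
variable (E' : ConstExt (AlgebraicClosure ℚ) ℂ
  ↥(laurentBaseChange (AlgebraicClosure ℚ) (heckeField F₀ ℓ))
  ↥(laurentBaseChange ℂ (heckeField F₀ ℓ)))

theorem squareCompat_alphaGen (hE : IsCoeffwise E) (hE' : IsCoeffwise E') (hι : E'.ι = E.ι) :
    SquareCompat E E' (alphaGen (AlgebraicClosure ℚ) F₀ ℓ) (alphaGen ℂ F₀ ℓ) := by
  refine ⟨hι, fun f => Subtype.ext ?_⟩
  rw [hE', coe_alphaGen, coe_alphaGen, hE, hι]

theorem squareCompat_betaGen (hE : IsCoeffwise E) (hE' : IsCoeffwise E') (hι : E'.ι = E.ι) :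
    SquareCompat E E' (betaGen (AlgebraicClosure ℚ) F₀ ℓ) (betaGen ℂ F₀ ℓ) := by
  refine ⟨hι, fun f => Subtype.ext ?_⟩
  rw [hE', coe_betaGen, coe_betaGen, hE, hι, es1_coeffMap_qExpand]

/-- **Hecke equivariance of descent.** -/
theorem descentL_hecke (hE : IsCoeffwise E) (hE' : IsCoeffwise E') (hι : E'.ι = E.ι)
    (hk : HeckeInputsGen (AlgebraicClosure ℚ) F₀ ℓ) (hC : HeckeInputsGen ℂ F₀ ℓ)
    (x : Pic0 (AlgebraicClosure ℚ) ↥(laurentBaseChange (AlgebraicClosure ℚ) F₀)) :
    descentL E (heckeOperatorGen (AlgebraicClosure ℚ) F₀ ℓ x)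
      = heckeOperatorGen ℂ F₀ ℓ (descentL E x) := by
  obtain ⟨hαk, hβk, hPk, hfink, hFIk, hNk⟩ := hk
  obtain ⟨hαC, hβC, hPC, hfinC, hFIC, hNC⟩ := hC
  rw [heckeOperatorGen_eq hαk hβk hFIk hfink hNk, heckeOperatorGen_eq hαC hβC hFIC hfinC hNC]
  exact descentA_correspondence E E' _ _ _ _ hβk hβC hαk hαC
    (squareCompat_betaGen E ℓ E' hE hE' hι) (squareCompat_alphaGen E ℓ E' hE hE' hι)
    hFIk hFIC hfink hfinC hNk hNC x

end Level

/-! ### Diamond operators -/

section Diamond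

variable (M : ℕ) [NeZero M]

theorem coeffMap_coeffEmb_ringHom {L L' : Type*} [Field L] [Field L'] [Algebra ℚ L]
    [Algebra ℚ L'] (ι : L →+* L') (z : LaurentSeries ℚ) :
    coeffMap ι (coeffEmb L z) = coeffEmb L' z := by
  rw [coeffEmb, coeffEmb, coeffMap_coeffMap]
  exact coeffMap_congr (RingHom.ext fun c => by simp) z

/-- The diamond automorphisms are unique. -/
theorem diamondData_aut_unique {L : Type*} [Field L] [Algebra ℚ L] (D D' : DiamondData L M)
    (d : (ZMod M)ˣ) : D.aut d = D'.aut d := by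
  have h : ((D.aut d : ↥(laurentBaseChange L (F1 M)) ≃ₐ[L] ↥(laurentBaseChange L (F1 M))) :
      ↥(laurentBaseChange L (F1 M)) →+* ↥(laurentBaseChange L (F1 M)))
      = ((D'.aut d : ↥(laurentBaseChange L (F1 M)) ≃ₐ[L] ↥(laurentBaseChange L (F1 M))) :
      ↥(laurentBaseChange L (F1 M)) →+* ↥(laurentBaseChange L (F1 M))) := by
    refine ringHom_ext_lbc (divisorExpansions M ∪ vGenSet M) _ _ (fun a => ?_) (fun s hs => ?_)
    · show D.aut d (algebraMap L _ a) = D'.aut d (algebraMap L _ a)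
      rw [AlgEquiv.commutes, AlgEquiv.commutes]
    · show D.aut d _ = D'.aut d _
      rcases hs with hs | ⟨a, rfl⟩
      · have hmem : coeffEmb L s ∈ laurentBaseChange L (modularFunctionFieldFull M) :=
          coeffEmb_mem_laurentBaseChange L (IntermediateField.subset_adjoin ℚ _ hs)
        exact (D.aut_full d ⟨coeffEmb L s, _⟩ hmem).trans (D'.aut_full d ⟨coeffEmb L s, _⟩ hmem).symm
      · exact (D.aut_v d a).trans (D'.aut_v d a).symm
  exact AlgEquiv.ext fun x =>
    congrArg (fun f : ↥(laurentBaseChange L (F1 M)) →+* ↥(laurentBaseChange L (F1 M)) => f x) h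

variable (E : ConstExt (AlgebraicClosure ℚ) ℂ ↥(F1Bar M) ↥(F1C M))

/-- The diamond automorphisms over `ℚ̄` and over `ℂ` are compatible with base change. -/
theorem diamond_bc_compat (hE : IsCoeffwise E) (Dk : DiamondData (AlgebraicClosure ℚ) M)
    (DC : DiamondData ℂ M) (d : (ZMod M)ˣ) (f : ↥(F1Bar M)) :
    E.bc (Dk.aut d f) = DC.aut d (E.bc f) := by
  have h : E.bc.comp ((Dk.aut d : ↥(F1Bar M) ≃ₐ[AlgebraicClosure ℚ] ↥(F1Bar M)) :
      ↥(F1Bar M) →+* ↥(F1Bar M))
      = ((DC.aut d : ↥(F1C M) ≃ₐ[ℂ] ↥(F1C M)) : ↥(F1C M) →+* ↥(F1C M)).comp E.bc := by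
    refine ringHom_ext_lbc (divisorExpansions M ∪ vGenSet M) _ _ (fun a => ?_) (fun s hs => ?_)
    · show E.bc (Dk.aut d (algebraMap _ _ a)) = DC.aut d (E.bc (algebraMap _ _ a))
      rw [AlgEquiv.commutes, E.bc_algebraMap, AlgEquiv.commutes]
    · show E.bc (Dk.aut d _) = DC.aut d (E.bc _)
      rcases hs with hs | ⟨a, rfl⟩
      · have hmem : coeffEmb (AlgebraicClosure ℚ) s
            ∈ laurentBaseChange (AlgebraicClosure ℚ) (modularFunctionFieldFull M) :=
          coeffEmb_mem_laurentBaseChange _ (IntermediateField.subset_adjoin ℚ _ hs)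
        have h1 := Dk.aut_full d ⟨coeffEmb (AlgebraicClosure ℚ) s,
          coeffEmb_mem_laurentBaseChange (AlgebraicClosure ℚ)
            (IntermediateField.subset_adjoin ℚ (divisorExpansions M ∪ vGenSet M) (Or.inl hs))⟩ hmem
        refine (congrArg E.bc h1).trans (DC.aut_full d _ ?_).symm
        rw [hE, coeffMap_coeffEmb_ringHom]
        exact coeffEmb_mem_laurentBaseChange _ (IntermediateField.subset_adjoin ℚ _ hs)
      · have e1 : ∀ b : (ZMod M)ˣ, E.bc (vBar (AlgebraicClosure ℚ) M b) = vBar ℂ M b := fun b =>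
          Subtype.ext (by rw [hE]; exact coeffMap_coeffEmb_ringHom _ _)
        show E.bc (Dk.aut d (vBar (AlgebraicClosure ℚ) M a))
          = DC.aut d (E.bc (vBar (AlgebraicClosure ℚ) M a))
        rw [Dk.aut_v, e1, e1, DC.aut_v]
  exact congrArg (fun g : ↥(F1Bar M) →+* ↥(F1C M) => g f) h

theorem diamondAut_eq {L : Type*} [Field L] [Algebra ℚ L] (D : DiamondData L M) :
    diamondAut L M = D.aut := by
  have hne : Nonempty (DiamondData L M) := ⟨D⟩
  rw [diamondAut, dif_pos hne]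
  ext d : 1
  exact diamondData_aut_unique M _ _ d

/-- **Diamond equivariance of descent.** -/
theorem descent1_diamond (hE : IsCoeffwise E) (Dk : DiamondData (AlgebraicClosure ℚ) M)
    (DC : DiamondData ℂ M) (d : (ZMod M)ˣ) (x : J1 M) :
    descentL E (SemilinearAut.ofAlgAut (diamondAut (AlgebraicClosure ℚ) M d) • x)
      = SemilinearAut.ofAlgAut (diamondAut ℂ M d) • descentL E x := by
  rw [diamondAut_eq M Dk, diamondAut_eq M DC]
  exact descentA_algAut E _ _ (diamond_bc_compat M E hE Dk DC d) x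

end Diamond

end Fermat.Agent.H29.ES1

end
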