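import Fermat.Agent.H69.ES1Finite
import Fermat.Agent.H23.ES1A.Unconditional
import Fermat.Agent.H32.ES1.Model1
import Fermat.Agent.H99.ES1.VFun
import Fermat.Agent.H60.LatSum
import Fermat.Agent.H87.ES1.LatSumQExp
import Fermat.Agent.H41.ES1.J1Smooth
import Fermat.Agent.H29.ES1.Descent1
import Fermat.Agent.H80.ES1.DiamondFinal
import Fermat.Agent.H57.ES1.GaussNormalForm1
import Fermat.Agent.H28.ES1.Wiring1
import Fermat.Agent.H46.ES1.Level
import Fermat.Agent.H89.J1Unramified
import Fermat.Agent.H61.ES1.GalHecke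

/-!
# P-ES1 : wiring of the landed blocks (helper29)

Unconditional: `vFun`, `diamondExists`, `model1_isModular`, `gaussNormalForm1'`,
`j1TorsFinite` (row ES1-FIN), `j1Smooth`.

`gamma1Residual_of` : the target `Fermat.Agent.H20.DS.Gamma1ResidualStatement` from the four
statements which are still open: the key lemma `KeyLemma1Statement`, the lift of the diamond
automorphisms to the Hecke field `DiamondLiftStatement`, the Eichler–Shimura relation
`J1EichlerShimuraStatement` and the occurrence statement `J1EigenStatement`.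
-/

set_option autoImplicit false

noncomputable section

namespace Fermat.Agent.H29.ES1

open AlgebraicCurve ModularCurve

/-- **ES1-GEN-c**, unconditional. -/
theorem vFun : VFunStatement :=
  Fermat.Agent.H99.ES1.vFunStatement Fermat.Agent.H60.latSumStatement
    Fermat.Agent.H87.ES1.latSumQExp

/-- **ES1-DIAM**, unconditional. -/
theorem diamondExists : DiamondExistsStatement :=
  Fermat.Agent.H80.ES1.diamondExists vFun

/-- **ES1-MODEL**, unconditional. -/
theorem model1_isModular : Model1Statement :=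
  Fermat.Agent.H32.ES1M.model1Statement vFun

/-- An embedding `ℚ̄ → ℂ`. -/
def iotaC : AlgebraicClosure ℚ →+* ℂ :=
  haveI : Algebra.IsAlgebraic ℚ (AlgebraicClosure ℚ) := AlgebraicClosure.isAlgebraic ℚ
  (IsAlgClosed.lift : AlgebraicClosure ℚ →ₐ[ℚ] ℂ).toRingHom

/-- The coefficientwise constant field extension `F1Bar M → F1C M`. -/
def constExt1 (M : ℕ) [NeZero M] (hM : 1 < M) :
    Fermat.Agent.H29.ConstExt (AlgebraicClosure ℚ) ℂ ↥(F1Bar M) ↥(F1C M) :=
  Fermat.Agent.H69.ES1.constExtF1 vFun M hM iotaC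

theorem constExt1_isCoeffwise (M : ℕ) [NeZero M] (hM : 1 < M) :
    IsCoeffwise (F₀ := F1 M) (constExt1 M hM) :=
  fun _ => rfl

/-- The torsion of `Pic⁰(F1C M)` is finite (ES1-A). -/
theorem finite_torsion_F1C (M : ℕ) [NeZero M] (hM : 5 ≤ M) {n : ℕ} (hn : 0 < n) :
    Finite ↥(Pic0.torsion ℂ ↥(F1C M) n) :=
  Fermat.Agent.H23.ES1A.finite_torsion_pic0 (model1 M) (model1_isModular M hM) hn

/-- **ES1-FIN** (row 586), unconditional: `J₁(M)(ℚ̄)[n]` is finite. -/
theorem j1TorsFinite : J1TorsFiniteStatement := by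
  intro M _ hM n hn
  exact finite_torsion_of_finite (F₀ := F1 M) (constExt1 M (by omega))
    (constExt1_isCoeffwise M (by omega)) (finite_torsion_F1C M hM hn)

/-- **ES1-SMOOTH**, unconditional. -/
theorem j1Smooth : J1SmoothStatement :=
  Fermat.Agent.H41.ES1.j1Smooth_of_principal fun M _ hM =>
    Fermat.Agent.H69.ES1.hasPrincipalDivisors_F1 vFun M (by omega) (AlgebraicClosure ℚ)

/-- **The descent isomorphism** `J₁(M)(ℚ̄)[n] ≃ Pic⁰(F1C M)[n]`. -/
def descent1Equiv (M : ℕ) [NeZero M] (hM : 5 ≤ M) {n : ℕ} (hn : 0 < n) :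
    J1Tors M n ≃+ Pic0.torsion ℂ ↥(F1C M) n :=
  descentTorsionEquivL (F₀ := F1 M) (constExt1 M (by omega))
    (constExt1_isCoeffwise M (by omega)) hn (finite_torsion_F1C M hM hn)

theorem coe_descent1Equiv (M : ℕ) [NeZero M] (hM : 5 ≤ M) {n : ℕ} (hn : 0 < n)
    (x : J1Tors M n) :
    ((descent1Equiv M hM hn x : Pic0.torsion ℂ ↥(F1C M) n) : Pic0 ℂ ↥(F1C M))
      = descentL (F₀ := F1 M) (constExt1 M (by omega)) (x : J1 M) :=
  rfl

/-- Diamond equivariance of the descent isomorphism. -/
theorem descent1_diamond' (M : ℕ) [NeZero M] (hM : 5 ≤ M) (d : (ZMod M)ˣ) (x : J1 M) :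
    descentL (F₀ := F1 M) (constExt1 M (by omega))
        (SemilinearAut.ofAlgAut (diamondAut (AlgebraicClosure ℚ) M d) • x)
      = SemilinearAut.ofAlgAut (diamondAut ℂ M d)
          • descentL (F₀ := F1 M) (constExt1 M (by omega)) x :=
  descent1_diamond M (constExt1 M (by omega)) (constExt1_isCoeffwise M (by omega))
    (diamondExists (AlgebraicClosure ℚ) M (by omega)).some
    (diamondExists ℂ M (by omega)).some d x

/-- **P-ES1, final wiring**: `Gamma1ResidualStatement` (= DS-3 of P-DS) from the open blocks. -/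
theorem gamma1Residual_of (hKL : KeyLemma1Statement)
    (hLift : Fermat.Agent.H61.ES1.DiamondLiftStatement)
    (hES : J1EichlerShimuraStatement) (hEIG : J1EigenStatement) :
    Fermat.Agent.H20.DS.Gamma1ResidualStatement :=
  Fermat.Agent.H46.ES1.gamma1Residual_of_five
    (Fermat.Agent.H28.gamma1Residual5_of_parts j1TorsFinite j1Smooth
      (Fermat.Agent.H61.ES1.j1GalHecke_of_lift hLift)
      (Fermat.Agent.H89.j1Unramified hKL Fermat.Agent.H57.ES1.gaussNormalForm1) hES hEIG)

end Fermat.Agent.H29.ES1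

end
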