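import Fermat.Agent.H91.ES1KL.Interfaces1
import Fermat.Agent.H29.ES1.Hecke

/-!
# P-ES1 / ES1-KL, milestone 2 (`ℓ = 2, 3`) : the two open inputs (helper29)

`KeyLemma1Statement` at the small primes is reduced (module `Fermat.Agent.H29.ES1.KL2Asm`) to the
chart-`j` statements below for the Hecke field `heckeField (F1 M) p = F1 M · V_p(F1 M)`
(the function field of `Γ₁(M) ∩ Γ₀(p)` over `ℚ`), `p ∈ {2, 3}`:

* `GbHStatement` (GB-H) : good basis of `K₁ · heckeField (F1 M) p` over `A₀[j]` at every prime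
  `ℓ ∤ p M`;
* `BrHDataStatement` (BR-H-DATA) : the branch data of `j` on `ℚ̄ · heckeField (F1 M) p`
  (unramified outside `0, 1728, ∞`, indices dividing `3, 2, p M`).

The charts `t₂`, `t₃` are reached by the generic chart changes (good basis: helper35's tower
step; branch data: helper2's `klbr_modelGen_t2S / t3`; Gauss valuation: helper61).
-/

set_option autoImplicit false

noncomputable section

namespace Fermat.Agent.H29.ES1

open ModularCurve AlgebraicCurve

theorem jq_mem_heckeField1 (M : ℕ) [NeZero M] (p : ℕ) [NeZero p] :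
    jq ∈ heckeField (F1 M) p :=
  le_heckeField (F1 M) p (jq_mem_F1 M)

/-- **GB-H**: good basis of the Hecke field of `X₁(M)` at `p`, chart `j`, at every prime
`ℓ ∤ p M`. -/
def GbHStatement : Prop :=
  ∀ (M : ℕ) [NeZero M], 5 ≤ M → ∀ (p : ℕ) [NeZero p], p.Prime → ¬ p ∣ M →
    ∀ ℓ : ℕ, ℓ.Prime → ¬ ℓ ∣ M → ℓ ≠ p →
      Fermat.Agent.H91.ES1KL.ModelGoodBasisGen (heckeField (F1 M) p) ℓ jq

/-- **BR-H-DATA**: the branch data of `j` on the curve `X(Γ₁(M) ∩ Γ₀(p))` over `ℚ̄`. -/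
def BrHDataStatement : Prop :=
  ∀ (M : ℕ) [NeZero M], 5 ≤ M → ∀ (p : ℕ) [NeZero p], p.Prime → ¬ p ∣ M →
    Fermat.Agent.H2.BranchClean (AlgebraicClosure ℚ)
      (Fermat.Agent.H2.jBarGen (heckeField (F1 M) p) (jq_mem_heckeField1 M p))
      (1728 : AlgebraicClosure ℚ) 3 2 (p * M)

end Fermat.Agent.H29.ES1
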