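import Fermat.Agent.H29.ESB.HeckeFinal

/-!
# P-ES1 / ES1-B (helper29): descent of torsion classes along ANY constant field extension

Abstract form of `Fermat.Agent.H29.ESB.Canonical` / `Hecke` / `HeckeFinal`: for a constant field
extension `E : ConstExt k K Fk FK` (`k ⊆ K` algebraically closed of characteristic zero)

* `extA E`       : the canonical (unramified, injective) extension of places;
* `descentA E`   : the base change homomorphism `Pic0 k Fk →+ Pic0 K FK`;
* `descentA_injective`, `descentA_surjOn_torsion`, `descentTorsionEquivA` (with Galois data);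
* `descentA_correspondence` : compatibility with correspondences (`SquareCompat`);
* `descentA_algAut`         : compatibility with automorphisms of the function fields.
-/

set_option autoImplicit false
set_option linter.style.haveILetI false

noncomputable section

open AlgebraicCurve IntermediateField

namespace Fermat.Agent.H29.ES1

open Fermat.Agent.H29

section Abstract

variable {k K Fk FK : Type} [Field k] [Field K] [Field Fk] [Field FK]
  [Algebra k Fk] [Algebra K FK] [IsAlgClosed k] [CharZero k] [IsAlgClosed K] [CharZero K]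
variable (E : ConstExt k K Fk FK)

/-- The canonical extension of places along a constant field extension. -/
def extA : Place k Fk → Place K FK :=
  (placeExtStatement _ _ _ _ E).choose

theorem extA_isPlaceExt : IsPlaceExt E (extA E) :=
  (placeExtStatement _ _ _ _ E).choose_spec.1

theorem extA_injective : Function.Injective (extA E) :=
  (placeExtStatement _ _ _ _ E).choose_spec.2

theorem extA_ord (v : Place k Fk) (f : Fk) : (extA E v).ord (E.bc f) = v.ord f :=
  extA_isPlaceExt E v f

/-- Uniqueness: a place of `FK` inducing the orders of `v` on `bc Fk` is `extA E v`. -/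
theorem eq_extA_of_ord (v : Place k Fk) (w : Place K FK)
    (hw : ∀ f : Fk, w.ord (E.bc f) = v.ord f) : w = extA E v :=
  placeExtUniqueStatement _ _ _ _ E v _ _ hw (extA_isPlaceExt E v)

/-- A place of `FK` is in the range of `extA` as soon as one element of `bc Fk` has nonzero
order there. -/
theorem mem_range_extA_of_ord_ne_zero (w : Place K FK) (f : Fk)
    (hf : w.ord (E.bc f) ≠ 0) : w ∈ Set.range (extA E) := by
  have hf0 : f ≠ 0 := by
    rintro rfl
    exact hf (by simp)
  obtain ⟨v, hv⟩ := rationalPlaceStatement _ _ _ _ E w ⟨f, hf0, hf⟩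
  exact ⟨v, (eq_extA_of_ord E v w hv).symm⟩

theorem degree_divisorBC_extA (D : Divisor k Fk) :
    Divisor.degree (divisorBC (extA E) D) = Divisor.degree D :=
  (divisorBCStatement _ _ _ _ E (extA E) (extA_isPlaceExt E)).1 D

theorem isPrincipal_divisorBC_extA (D : Divisor k Fk) (hD : Divisor.IsPrincipal D) :
    Divisor.IsPrincipal (divisorBC (extA E) D) := by
  obtain ⟨f, hf, hD⟩ := hD
  exact ⟨E.bc f, (map_ne_zero _).mpr hf,
    (divisorBCStatement _ _ _ _ E (extA E) (extA_isPlaceExt E)).2 f hf D hD⟩

/-- **The descent homomorphism** `Pic0 k Fk → Pic0 K FK`. -/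
def descentA : Pic0 k Fk →+ Pic0 K FK :=
  pic0BC (extA E) (degree_divisorBC_extA E) (isPrincipal_divisorBC_extA E)

theorem descentA_mk (D : Divisor.degZero (K := k) (F := Fk)) :
    descentA E (Pic0.mk D) = Pic0.mk (degZeroBC (extA E) (degree_divisorBC_extA E) D) := rfl

theorem descentA_injective (Gd : GaloisData E) : Function.Injective (descentA E) := by
  rw [injective_iff_map_eq_zero]
  intro z hz
  obtain ⟨D, rfl⟩ := Pic0.mk_surjective z
  rw [descentA_mk, pic0_mk_eq_zero_iff, coe_degZeroBC] at hz
  rw [pic0_mk_eq_zero_iff]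
  exact injectivityStatement _ _ _ _ E Gd (extA E) (extA_isPlaceExt E) _ hz

theorem descentA_mem_torsion {m : ℕ} {z : Pic0 k Fk} (hz : z ∈ Pic0.torsion k Fk m) :
    descentA E z ∈ Pic0.torsion K FK m := by
  rw [Pic0.mem_torsion] at hz ⊢
  rw [← map_zsmul, hz, map_zero]

/-- Surjectivity of the descent homomorphism on `m`-torsion (given finiteness over `K`). -/
theorem descentA_surjOn_torsion (Gd : GaloisData E) {m : ℕ} (hm : 0 < m)
    (hfin : Finite (Pic0.torsion K FK m)) (z : Pic0 K FK) (hz : z ∈ Pic0.torsion K FK m) :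
    ∃ z₀ : Pic0 k Fk, z₀ ∈ Pic0.torsion k Fk m ∧ descentA E z₀ = z := by
  obtain ⟨D', rfl⟩ := Pic0.mk_surjective z
  rw [Pic0.mem_torsion] at hz
  have hz' : Divisor.IsPrincipal (m • (D' : Divisor K FK)) := by
    have h1 : ((m : ℤ) • Pic0.mk D' : Pic0 K FK) = Pic0.mk ((m : ℤ) • D') := rfl
    rw [h1, pic0_mk_eq_zero_iff] at hz
    simpa using hz
  obtain ⟨D, hD0, hDm, hDD'⟩ :=
    surjectivityStatement _ _ _ _ E Gd (extA E) (extA_isPlaceExt E) m hm hfin
      (D' : Divisor K FK) D'.2 hz'
  refine ⟨Pic0.mk ⟨D, hD0⟩, ?_, ?_⟩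
  · rw [Pic0.mem_torsion]
    have h1 : ((m : ℤ) • Pic0.mk ⟨D, hD0⟩ : Pic0 k Fk)
        = Pic0.mk ((m : ℤ) • (⟨D, hD0⟩ : Divisor.degZero (K := k) (F := Fk))) := rfl
    rw [h1, pic0_mk_eq_zero_iff]
    simpa using hDm
  · rw [descentA_mk, pic0_mk_eq_mk_iff, coe_degZeroBC]
    have : divisorBC (extA E) D - (D' : Divisor K FK)
        = -((D' : Divisor K FK) - divisorBC (extA E) D) := by
      abel
    rw [this]
    exact (Divisor.principal (K := K) (F := FK)).neg_mem hDD'

/-- The descent isomorphism on `m`-torsion. -/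
def descentTorsionEquivA (Gd : GaloisData E) {m : ℕ} (hm : 0 < m)
    (hfin : Finite (Pic0.torsion K FK m)) :
    Pic0.torsion k Fk m ≃+ Pic0.torsion K FK m :=
  AddEquiv.ofBijective
    (((descentA E).comp (Pic0.torsion k Fk m).subtype).codRestrict
      (Pic0.torsion K FK m) (fun z => descentA_mem_torsion E z.2))
    ⟨fun a b hab => Subtype.ext (descentA_injective E Gd (congrArg Subtype.val hab)),
      fun z => by
        obtain ⟨z₀, hz₀, hzz⟩ := descentA_surjOn_torsion E Gd hm hfin z.1 z.2
        exact ⟨⟨z₀, hz₀⟩, Subtype.ext hzz⟩⟩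

@[simp]
theorem coe_descentTorsionEquivA (Gd : GaloisData E) {m : ℕ} (hm : 0 < m)
    (hfin : Finite (Pic0.torsion K FK m)) (z : Pic0.torsion k Fk m) :
    ((descentTorsionEquivA E Gd hm hfin z : Pic0.torsion K FK m) : Pic0 K FK)
      = descentA E (z : Pic0 k Fk) := rfl

/-! ### Correspondences -/

section Corr

variable {Fk' FK' : Type} [Field Fk'] [Field FK'] [Algebra k Fk'] [Algebra K FK']
  [HasPrincipalDivisors k Fk'] [HasPrincipalDivisors K FK']

/-- **Descent commutes with correspondences.** -/
theorem descentA_correspondence (E' : ConstExt k K Fk' FK')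
    (φk ψk : Fk →ₐ[k] Fk') (φK ψK : FK →ₐ[K] FK')
    (hφk : φk.toRingHom.IsIntegral) (hφK : φK.toRingHom.IsIntegral)
    (hψk : ψk.toRingHom.IsIntegral) (hψK : ψK.toRingHom.IsIntegral)
    (hsq : SquareCompat E E' φk φK) (hsq' : SquareCompat E E' ψk ψK)
    (hFIk : FundamentalIdentityAlong k φk hφk) (hFIK : FundamentalIdentityAlong K φK hφK)
    (hfink : FiniteAlong k ψk) (hfinK : FiniteAlong K ψK)
    (hNk : NormFormulaAlong k ψk hfink) (hNK : NormFormulaAlong K ψK hfinK)
    (x : Pic0 k Fk) :
    descentA E (Pic0.correspondence φk ψk hφk hψk hFIk hfink hNk x)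
      = Pic0.correspondence φK ψK hφK hψK hFIK hfinK hNK (descentA E x) :=
  pic0BC_correspondence (extA E) (degree_divisorBC_extA E) (isPrincipal_divisorBC_extA E)
    φk ψk φK ψK hφk hφK hψk hψK hFIk hFIK hfink hfinK hNk hNK
    (fun D => correspondenceBCStatement _ _ _ _ _ _ E E' φk ψk φK ψK hφk hφK hψk hψK hsq hsq'
      (extA E) (extA E') (extA_isPlaceExt E) (extA_isPlaceExt E') D) x

end Corr

/-! ### Automorphisms -/

/-- The canonical extension of places commutes with automorphisms compatible with `bc`. -/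
theorem extA_algAut (θk : Fk ≃ₐ[k] Fk) (θK : FK ≃ₐ[K] FK)
    (h : ∀ f : Fk, E.bc (θk f) = θK (E.bc f)) (v : Place k Fk) :
    extA E (SemilinearAut.ofAlgAut θk • v) = SemilinearAut.ofAlgAut θK • extA E v := by
  symm
  refine eq_extA_of_ord E _ _ fun f => ?_
  have h1 : E.bc f = SemilinearAut.ofAlgAut θK • E.bc (θk.symm f) := by
    rw [SemilinearAut.ofAlgAut_smul, ← h, AlgEquiv.apply_symm_apply]
  have h2 : f = SemilinearAut.ofAlgAut θk • θk.symm f := by
    rw [SemilinearAut.ofAlgAut_smul, AlgEquiv.apply_symm_apply]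
  rw [h1, SemilinearAut.ord_smul, extA_ord]
  conv_rhs => rw [h2, SemilinearAut.ord_smul]

theorem divisorBC_extA_algAut (θk : Fk ≃ₐ[k] Fk) (θK : FK ≃ₐ[K] FK)
    (h : ∀ f : Fk, E.bc (θk f) = θK (E.bc f)) (D : Divisor k Fk) :
    divisorBC (extA E) (SemilinearAut.ofAlgAut θk • D)
      = SemilinearAut.ofAlgAut θK • divisorBC (extA E) D := by
  induction D using Finsupp.induction with
  | zero => simp
  | single_add v n D _ _ ih =>
      rw [smul_add, map_add, map_add, smul_add, ih, SemilinearAut.smul_single]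
      congr 1
      show Finsupp.mapDomain (extA E) (Finsupp.single _ n)
        = SemilinearAut.ofAlgAut θK • Finsupp.mapDomain (extA E) (Finsupp.single v n)
      rw [Finsupp.mapDomain_single, Finsupp.mapDomain_single, SemilinearAut.smul_single,
        extA_algAut E θk θK h]

/-- **Descent commutes with automorphisms** of the function fields compatible with `bc`. -/
theorem descentA_algAut (θk : Fk ≃ₐ[k] Fk) (θK : FK ≃ₐ[K] FK)
    (h : ∀ f : Fk, E.bc (θk f) = θK (E.bc f)) (x : Pic0 k Fk) :
    descentA E (SemilinearAut.ofAlgAut θk • x) = SemilinearAut.ofAlgAut θK • descentA E x := by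
  obtain ⟨D, rfl⟩ := Pic0.mk_surjective x
  rw [SemilinearAut.pic0_smul_mk, descentA_mk, descentA_mk, SemilinearAut.pic0_smul_mk]
  congr 1
  apply Subtype.ext
  rw [coe_degZeroBC, SemilinearAut.coe_degZeroSMulHom, SemilinearAut.coe_degZeroSMulHom,
    coe_degZeroBC]
  exact divisorBC_extA_algAut E θk θK h _

end Abstract

end Fermat.Agent.H29.ES1

end
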