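import Mathlib
import Fermat.Agent.H44.KL.NormTrick
import Fermat.Agent.H29.ES1.Interfaces

/-!
# P-ES1 / ES1-KL, milestone 2 : the norm trick, generic in the level field (helper29)

Port of `Fermat.Agent.H44.kl_normTrick` (row 361) to arbitrary level fields `F₀ ≤ F₀'`:
if the degree of `ℚ̄ · F₀'` over `ℚ̄ · F₀` is a power of the prime `ℓ`, the key lemma for `F₀'`
at `ℓ` implies the key lemma for `F₀` at `ℓ`.

Instances: `F₀' = heckeField F₀ p = F₀ · V_p(F₀)` (for `F₀ = F1 M` the function field of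
`Γ₁(M) ∩ Γ₀(p)`, of degree `p + 1` over `F1 M`): `p = 2` for `ℓ = 3`, `p = 3` for `ℓ = 2`.
-/

set_option autoImplicit false
set_option linter.style.haveILetI false

noncomputable section

namespace Fermat.Agent.H29.ES1

open AlgebraicCurve ModularCurve

/-- The inclusion `L · F₀ → L · F₀'` for level fields `F₀ ≤ F₀'`. -/
def inclGen (L : Type*) [Field L] [Algebra ℚ L] {F₀ F₀' : IntermediateField ℚ (LaurentSeries ℚ)}
    (hle : F₀ ≤ F₀') : laurentBaseChange L F₀ →ₐ[L] laurentBaseChange L F₀' :=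
  IntermediateField.inclusion (es1_laurentBaseChange_mono L hle)

@[simp]
theorem coe_inclGen (L : Type*) [Field L] [Algebra ℚ L]
    {F₀ F₀' : IntermediateField ℚ (LaurentSeries ℚ)} (hle : F₀ ≤ F₀')
    (x : laurentBaseChange L F₀) : (inclGen L hle x : LaurentSeries L) = (x : LaurentSeries L) :=
  IntermediateField.coe_inclusion _ x

theorem inclGen_heckeField (L : Type*) [Field L] [Algebra ℚ L]
    (F₀ : IntermediateField ℚ (LaurentSeries ℚ)) (p : ℕ) [NeZero p] :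
    inclGen L (le_heckeField F₀ p) = alphaGen L F₀ p := rfl

/-- **The norm trick, generic in the level field**: if the degree of `ℚ̄ · F₀'` over `ℚ̄ · F₀`
is a power of the prime `ℓ`, the key lemma for `F₀'` at `ℓ` implies the key lemma for `F₀`. -/
theorem klGen_normTrick {F₀ F₀' : IntermediateField ℚ (LaurentSeries ℚ)} (hle : F₀ ≤ F₀')
    (ℓ : ℕ) (hℓ : ℓ.Prime)
    (hfin : FiniteAlong (AlgebraicClosure ℚ) (inclGen (AlgebraicClosure ℚ) hle))
    (hdeg : ∃ k : ℕ,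
      finrankAlong (AlgebraicClosure ℚ) (inclGen (AlgebraicClosure ℚ) hle) = ℓ ^ k)
    (h : KeyLemmaGenStatement F₀' ℓ) : KeyLemmaGenStatement F₀ ℓ := by
  intro A hA m hm hℓm a b ha hb hred hne hord
  set φ := inclGen (AlgebraicClosure ℚ) hle with hφdef
  have hφ : φ.toRingHom.IsIntegral := by
    letI := algebraAlong φ
    haveI : Module.Finite ↥(laurentBaseChange (AlgebraicClosure ℚ) F₀)
        ↥(laurentBaseChange (AlgebraicClosure ℚ) F₀') := hfin
    intro x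
    exact Algebra.IsIntegral.isIntegral (R := ↥(laurentBaseChange (AlgebraicClosure ℚ) F₀)) x
  have ha' : coeffMap A.subtype a ∈ laurentBaseChange (AlgebraicClosure ℚ) F₀' :=
    (φ ⟨_, ha⟩).2
  have hb' : coeffMap A.subtype b ∈ laurentBaseChange (AlgebraicClosure ℚ) F₀' :=
    (φ ⟨_, hb⟩).2
  have hφa : φ ⟨_, ha⟩ = ⟨coeffMap A.subtype a, ha'⟩ := rfl
  have hφb : φ ⟨_, hb⟩ = ⟨coeffMap A.subtype b, hb'⟩ := rfl
  -- nonvanishing
  have hb_red : coeffMap (IsLocalRing.residue A) b ≠ 0 := hred ▸ hne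
  have ha0 : (⟨coeffMap A.subtype a, ha⟩ : laurentBaseChange (AlgebraicClosure ℚ) F₀) ≠ 0 := by
    intro h0
    exact Fermat.Agent.H44.klnt_coeffMap_subtype_ne_zero A
      (Fermat.Agent.H44.klnt_coeffMap_ne_zero _ hne) (congrArg Subtype.val h0)
  have hb0 : (⟨coeffMap A.subtype b, hb⟩ : laurentBaseChange (AlgebraicClosure ℚ) F₀) ≠ 0 := by
    intro h0
    exact Fermat.Agent.H44.klnt_coeffMap_subtype_ne_zero A
      (Fermat.Agent.H44.klnt_coeffMap_ne_zero _ hb_red) (congrArg Subtype.val h0)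
  -- the key lemma upstairs
  obtain ⟨w', hw'⟩ := h A hA m hm hℓm a b ha' hb' hred hne (by
    intro P'
    have e1 := Place.ord_restrictAlong φ hφ P' ⟨_, ha⟩
    have e2 := Place.ord_restrictAlong φ hφ P' ⟨_, hb⟩
    rw [hφa] at e1
    rw [hφb] at e2
    rw [e1, e2, ← mul_sub]
    exact Dvd.dvd.mul_left (hord (P'.restrictAlong φ hφ)) _)
  -- descend by the norm
  have hcop : Nat.Coprime m (finrankAlong (AlgebraicClosure ℚ) φ) := by
    obtain ⟨k, hk⟩ := hdeg
    rw [hk]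
    exact Nat.Coprime.pow_right k ((Nat.Prime.coprime_iff_not_dvd hℓ).mpr hℓm).symm
  have hb0' : (⟨coeffMap A.subtype b, hb'⟩ : laurentBaseChange (AlgebraicClosure ℚ) F₀') ≠ 0 := by
    rw [← hφb]
    exact (map_ne_zero φ).mpr hb0
  have hu : (⟨coeffMap A.subtype a, ha⟩ : laurentBaseChange (AlgebraicClosure ℚ) F₀)
      / ⟨coeffMap A.subtype b, hb⟩ ≠ 0 := div_ne_zero ha0 hb0
  have hw : w' ^ m = φ ((⟨coeffMap A.subtype a, ha⟩ : laurentBaseChange (AlgebraicClosure ℚ) F₀)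
      / ⟨coeffMap A.subtype b, hb⟩) := by
    rw [map_div₀, hφa, hφb, eq_div_iff hb0']
    exact hw'
  obtain ⟨w, hwm⟩ := Fermat.Agent.H44.klnt_exists_pow_eq φ hfin hcop hu hw
  exact ⟨w, by rw [hwm, div_mul_cancel₀ _ hb0]⟩

/-- The norm trick for the Hecke field `F₀ · V_p(F₀)` of degree `ℓ ^ k` over `F₀`. -/
theorem klGen_normTrick_heckeField (F₀ : IntermediateField ℚ (LaurentSeries ℚ)) (p : ℕ)
    [NeZero p] (ℓ : ℕ) (hℓ : ℓ.Prime)
    (hfin : FiniteAlong (AlgebraicClosure ℚ) (alphaGen (AlgebraicClosure ℚ) F₀ p))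
    (hdeg : ∃ k : ℕ,
      finrankAlong (AlgebraicClosure ℚ) (alphaGen (AlgebraicClosure ℚ) F₀ p) = ℓ ^ k)
    (h : KeyLemmaGenStatement (heckeField F₀ p) ℓ) : KeyLemmaGenStatement F₀ ℓ :=
  klGen_normTrick (le_heckeField F₀ p) ℓ hℓ hfin hdeg h

/-- `ℓ = 3` : the key lemma for `F₀ · V₂(F₀)` at `3` gives the key lemma for `F₀` at `3`,
if the degree is `3`. -/
theorem klGen_three_of_double (F₀ : IntermediateField ℚ (LaurentSeries ℚ))
    (hfin : FiniteAlong (AlgebraicClosure ℚ) (alphaGen (AlgebraicClosure ℚ) F₀ 2))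
    (hdeg : finrankAlong (AlgebraicClosure ℚ) (alphaGen (AlgebraicClosure ℚ) F₀ 2) = 2 + 1)
    (h : KeyLemmaGenStatement (heckeField F₀ 2) 3) : KeyLemmaGenStatement F₀ 3 :=
  klGen_normTrick_heckeField F₀ 2 3 Nat.prime_three hfin ⟨1, by rw [hdeg]; norm_num⟩ h

/-- `ℓ = 2` : the key lemma for `F₀ · V₃(F₀)` at `2` gives the key lemma for `F₀` at `2`,
if the degree is `4`. -/
theorem klGen_two_of_triple (F₀ : IntermediateField ℚ (LaurentSeries ℚ))
    (hfin : FiniteAlong (AlgebraicClosure ℚ) (alphaGen (AlgebraicClosure ℚ) F₀ 3))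
    (hdeg : finrankAlong (AlgebraicClosure ℚ) (alphaGen (AlgebraicClosure ℚ) F₀ 3) = 3 + 1)
    (h : KeyLemmaGenStatement (heckeField F₀ 3) 2) : KeyLemmaGenStatement F₀ 2 :=
  klGen_normTrick_heckeField F₀ 3 2 Nat.prime_two hfin ⟨2, by rw [hdeg]; norm_num⟩ h

end Fermat.Agent.H29.ES1

end
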