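import Fermat.Agent.H16.ES1ESNormSeries
import Fermat.Agent.H34.ES1AL.Main
import Fermat.Agent.H77.ES1Deg.Main
import Fermat.Agent.H29.ES1.Descent1Final
import Fermat.Agent.H29.ES1.NormTrick

/-!
# P-ES1 : the degree of the Hecke field of `X₁(M)` over `ℚ̄` is exactly `p + 1` (helper29)

`heckeDegreeEq1` : `finrankAlong ℚ̄ (alphaGen ℚ̄ (F1 M) p) = p + 1` for `M ≥ 5`, `p ∤ M` prime
(upper bound: helper77, row 667; lower bound: the `p + 1` distinct embeddings of
`Fermat.Agent.H16.normSeries1_of_parts`, built from helper34's Atkin–Lehner homomorphism).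

Consequences (norm trick, milestone 2 of ES1-KL):
`keyLemma1_three_of_double`, `keyLemma1_two_of_triple`.
-/

set_option autoImplicit false

noncomputable section

namespace Fermat.Agent.H29.ES1

open ModularCurve AlgebraicCurve HahnSeries IntermediateField Fermat.Agent.H16

set_option maxHeartbeats 1600000 in
/-- The degree of the degeneracy map `α` of `X₁(M)` at `p ∤ M` is at least `p + 1`. -/
theorem heckeDegree1_ge (hAL : AtkinLehner1Statement) (hH : HeckeInputs1Statement)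
    (M : ℕ) [NeZero M] (hM : 5 ≤ M) (p : ℕ) [NeZero p] (hp : p.Prime) (hpM : ¬ p ∣ M) :
    p + 1 ≤ finrankAlong (AlgebraicClosure ℚ) (alphaGen (AlgebraicClosure ℚ) (F1 M) p) := by
  obtain ⟨W, hWα, hWβ⟩ := hAL M hM p hp hpM
  obtain ⟨-, -, -, hfin, -, -⟩ := hH M hM p hp hpM
  obtain ⟨ζ₀, hζ₀⟩ : ∃ ζ₀ : AlgebraicClosure ℚ, IsPrimitiveRoot ζ₀ p :=
    HasEnoughRootsOfUnity.exists_primitiveRoot (AlgebraicClosure ℚ) p
  have hζ₀u : IsUnit ζ₀ := hζ₀.isUnit (NeZero.ne p)
  obtain ⟨ζ, rfl⟩ := hζ₀u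
  have hζu : IsPrimitiveRoot ζ p := IsPrimitiveRoot.coe_units_iff.mp hζ₀
  generalize hu : es1Unit M hp hpM = u at hWβ
  let a : F1Bar M →+* laurentBaseChange (AlgebraicClosure ℚ) (heckeField (F1 M) p) :=
    (alphaGen (AlgebraicClosure ℚ) (F1 M) p).toRingHom
  let ι₀ : F1Bar M →+* LaurentSeries (AlgebraicClosure ℚ) :=
    (qExpand (AlgebraicClosure ℚ) p).comp (F1Bar M).val.toRingHom
  let t : Option (Fin p) → (laurentBaseChange (AlgebraicClosure ℚ) (heckeField (F1 M) p) →+*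
      LaurentSeries (AlgebraicClosure ℚ)) := fun x =>
    match x with
    | none => (qExpand (AlgebraicClosure ℚ) p).comp
        (laurentBaseChange (AlgebraicClosure ℚ) (heckeField (F1 M) p)).val.toRingHom
    | some b => ((Fermat.Agent.H27.twist (ζ ^ (b : ℕ))).comp
        (laurentBaseChange (AlgebraicClosure ℚ) (heckeField (F1 M) p)).val.toRingHom).comp
        (W : laurentBaseChange (AlgebraicClosure ℚ) (heckeField (F1 M) p) →+*
          laurentBaseChange (AlgebraicClosure ℚ) (heckeField (F1 M) p))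
  have htnone : ∀ y : laurentBaseChange (AlgebraicClosure ℚ) (heckeField (F1 M) p),
      t none y = qExpand (AlgebraicClosure ℚ) p (y : LaurentSeries (AlgebraicClosure ℚ)) :=
    fun _ => rfl
  have htsome : ∀ (b : Fin p) (y : laurentBaseChange (AlgebraicClosure ℚ) (heckeField (F1 M) p)),
      t (some b) y = Fermat.Agent.H27.twist (ζ ^ (b : ℕ))
        ((W y : laurentBaseChange (AlgebraicClosure ℚ) (heckeField (F1 M) p)) :
          LaurentSeries (AlgebraicClosure ℚ)) :=
    fun _ _ => rfl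
  have hcomm : ∀ x, (t x).comp a = ι₀ := by
    intro x
    ext1 g
    rcases x with _ | b
    · show t none (alphaGen (AlgebraicClosure ℚ) (F1 M) p g) = _
      rw [htnone, coe_alphaGen]
      rfl
    · show t (some b) (alphaGen (AlgebraicClosure ℚ) (F1 M) p g) = _
      rw [htsome, hWα, coe_betaGen, es1_twist_qExpand]
      · rfl
      · rw [← pow_mul, mul_comm, pow_mul, hζu.pow_eq_one, one_pow]
  have hp2 : ¬ ((p : ℤ) ∣ (-1 : ℤ)) := by
    intro h
    have h1 : (p : ℤ) ∣ 1 := (dvd_neg.mp h)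
    have h2 : p ∣ 1 := by exact_mod_cast h1
    exact hp.one_lt.ne' (Nat.dvd_one.mp h2)
  have hvnone : (t none (betaGen (AlgebraicClosure ℚ) (F1 M) p
      (jBar1 (AlgebraicClosure ℚ) M))).coeff (-1 : ℤ) = 0 := by
    rw [htnone]
    exact qExpand_coeff_of_not_dvd p _ hp2
  have hvsome : ∀ b : Fin p,
      (t (some b) (betaGen (AlgebraicClosure ℚ) (F1 M) p (jBar1 (AlgebraicClosure ℚ) M))).coeff
        (-1 : ℤ) = (((ζ ^ (b : ℕ)) ^ (-1 : ℤ) : (AlgebraicClosure ℚ)ˣ) : AlgebraicClosure ℚ) := by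
    intro b
    rw [htsome, hWβ, diamondAut_jBar1, coe_alphaGen, Fermat.Agent.H27.twist_coeff, coeff_jBar1,
      mul_one]
  have hinj : Function.Injective t := by
    intro x y hxy
    have hval := congrArg (fun s : laurentBaseChange (AlgebraicClosure ℚ) (heckeField (F1 M) p)
      →+* LaurentSeries (AlgebraicClosure ℚ) =>
      (s (betaGen (AlgebraicClosure ℚ) (F1 M) p (jBar1 (AlgebraicClosure ℚ) M))).coeff
        (-1 : ℤ)) hxy
    beta_reduce at hval
    rcases x with _ | b <;> rcases y with _ | b'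
    · rfl
    · exfalso
      rw [hvnone, hvsome] at hval
      exact Units.ne_zero _ hval.symm
    · exfalso
      rw [hvnone, hvsome] at hval
      exact Units.ne_zero _ hval
    · rw [hvsome, hvsome] at hval
      have h1 : (ζ ^ (b : ℕ)) ^ (-1 : ℤ) = (ζ ^ (b' : ℕ)) ^ (-1 : ℤ) := Units.ext hval
      have h2 : ζ ^ (b : ℕ) = ζ ^ (b' : ℕ) := by
        have := congrArg (fun u : (AlgebraicClosure ℚ)ˣ => u⁻¹) h1
        simpa using this
      have h3 : (b : ℕ) = (b' : ℕ) := hζu.pow_inj b.2 b'.2 h2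
      exact congrArg some (Fin.ext h3)
  have hcard : Fintype.card (Option (Fin p)) = p + 1 := by
    rw [Fintype.card_option, Fintype.card_fin]
  have hge := es1_card_le_finrank a ι₀ t hcomm hinj hfin
  rw [hcard] at hge
  exact hge

/-- **The degree of the Hecke field of `X₁(M)` over `ℚ̄`** is `p + 1` (unconditional). -/
theorem heckeDegreeEq1 (M : ℕ) [NeZero M] (hM : 5 ≤ M) (p : ℕ) [NeZero p] (hp : p.Prime)
    (hpM : ¬ p ∣ M) :
    finrankAlong (AlgebraicClosure ℚ) (alphaGen (AlgebraicClosure ℚ) (F1 M) p) = p + 1 :=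
  le_antisymm (Fermat.Agent.H77.heckeDegree1 vFun M hM p hp hpM)
    (heckeDegree1_ge (Fermat.Agent.H34.atkinLehner1 vFun diamondExists)
      (fun M _ hM p _ _ _ => heckeInputs1 (AlgebraicClosure ℚ) M (by omega) p) M hM p hp hpM)

theorem heckeFinite1 (M : ℕ) [NeZero M] (hM : 1 < M) (p : ℕ) [NeZero p] :
    FiniteAlong (AlgebraicClosure ℚ) (alphaGen (AlgebraicClosure ℚ) (F1 M) p) := by
  obtain ⟨-, -, -, hfin, -, -⟩ := heckeInputs1 (AlgebraicClosure ℚ) M hM p
  exact hfin

/-- **Norm trick, `ℓ = 3`**: the key lemma for the function field of `Γ₁(M) ∩ Γ₀(2)` at `3`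
gives the key lemma for `X₁(M)` at `3` (`M ≥ 5` odd). -/
theorem keyLemma1_three_of_double (M : ℕ) [NeZero M] (hM : 5 ≤ M) (h2 : ¬ 2 ∣ M)
    (h : KeyLemmaGenStatement (heckeField (F1 M) 2) 3) : KeyLemmaGenStatement (F1 M) 3 :=
  klGen_three_of_double (F1 M) (heckeFinite1 M (by omega) 2)
    (heckeDegreeEq1 M hM 2 Nat.prime_two h2) h

/-- **Norm trick, `ℓ = 2`**: the key lemma for the function field of `Γ₁(M) ∩ Γ₀(3)` at `2`
gives the key lemma for `X₁(M)` at `2` (`M ≥ 5`, `3 ∤ M`). -/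
theorem keyLemma1_two_of_triple (M : ℕ) [NeZero M] (hM : 5 ≤ M) (h3 : ¬ 3 ∣ M)
    (h : KeyLemmaGenStatement (heckeField (F1 M) 3) 2) : KeyLemmaGenStatement (F1 M) 2 :=
  klGen_two_of_triple (F1 M) (heckeFinite1 M (by omega) 3)
    (heckeDegreeEq1 M hM 3 Nat.prime_three h3) h

end Fermat.Agent.H29.ES1

end
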