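import Fermat.Agent.H29.ES1.Wiring2
import Fermat.Agent.H29.ES1.HeckeDegreeEq
import Fermat.Agent.H20.ES1.ESFinal2
import Fermat.Agent.H21.Es1C.J1Eigen
import Fermat.Agent.H77.ES1Deg.Main

/-!
# P-ES1 : wiring, third stage (helper29)

`s48_of_keyLemma1` : S48 (Deligne–Serre) from the key lemma `KeyLemma1Statement` for `X₁(M)`
ALONE: the Eichler–Shimura relation (helper16, helper20, helper34, helper77), the occurrence
statement (helper21 and the ES1-C team) and all other blocks are plugged in.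

`keyLemma1_of_cases` : the key lemma for `X₁(M)` at all good primes from the tame primes
`ℓ ≥ 5` and the four small cases (norm trick).
-/

set_option autoImplicit false

noncomputable section

namespace Fermat.Agent.H29.ES1

/-- **ES1-ES-DEG**, unconditional (helper77). -/
theorem heckeDegree1 : Fermat.Agent.H16.HeckeDegree1Statement :=
  Fermat.Agent.H77.heckeDegree1 vFun

/-- **ES1-ES-1**, unconditional (helper16). -/
theorem normSeries1 : Fermat.Agent.H16.NormSeries1Statement :=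
  Fermat.Agent.H16.normSeries1_of_parts atkinLehner1 heckeDegree1 heckeInputs1Statement

/-- **ES1-ES** from the key lemma (helper20: no diamond integrality is needed). -/
theorem j1EichlerShimura_of_keyLemma1 (hKL : KeyLemma1Statement) : J1EichlerShimuraStatement :=
  Fermat.Agent.H20.ES1.j1EichlerShimura_of_normSeries hKL Fermat.Agent.H57.ES1.gaussNormalForm1
    heckeInputs1Statement normSeries1

/-- **ES1-EIG**, unconditional (helper21). -/
theorem j1Eigen : J1EigenStatement :=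
  Fermat.Agent.H21.Es1C.j1Eigen

/-- **P-ES1 from the key lemma for `X₁(M)`.** -/
theorem gamma1Residual_of_keyLemma1 (hKL : KeyLemma1Statement) :
    Fermat.Agent.H20.DS.Gamma1ResidualStatement :=
  Fermat.Agent.H46.ES1.gamma1Residual_of_five
    (Fermat.Agent.H28.gamma1Residual5_of_parts j1TorsFinite j1Smooth j1GalHecke
      (Fermat.Agent.H89.j1Unramified hKL Fermat.Agent.H57.ES1.gaussNormalForm1)
      (j1EichlerShimura_of_keyLemma1 hKL) j1Eigen)

/-- **S48 (Deligne–Serre) from the key lemma for `X₁(M)`.** -/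
theorem s48_of_keyLemma1 (hKL : KeyLemma1Statement) : Fermat.Agent.H20.DS.S48Statement :=
  Fermat.Agent.H20.DS.s48_of_gamma1Residual (gamma1Residual_of_keyLemma1 hKL)

/-- **The key lemma for `X₁(M)` at all good primes** from the tame primes `ℓ ≥ 5` and the four
small cases: `ℓ = 3` on `Γ₁(M) ∩ Γ₀(2)` (`M` odd) or on `Γ₁(M)` (`2 ∣ M`), `ℓ = 2` on
`Γ₁(M) ∩ Γ₀(3)` (`3 ∤ M`) or on `Γ₁(M)` (`3 ∣ M`). -/
theorem keyLemma1_of_cases
    (h5 : ∀ (M : ℕ) [NeZero M], 5 ≤ M → ∀ ℓ : ℕ, ℓ.Prime → 5 ≤ ℓ → ¬ ℓ ∣ M →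
      KeyLemmaGenStatement (F1 M) ℓ)
    (h3a : ∀ (M : ℕ) [NeZero M], 5 ≤ M → ¬ 2 ∣ M → ¬ 3 ∣ M →
      KeyLemmaGenStatement (heckeField (F1 M) 2) 3)
    (h3b : ∀ (M : ℕ) [NeZero M], 5 ≤ M → 2 ∣ M → ¬ 3 ∣ M → KeyLemmaGenStatement (F1 M) 3)
    (h2a : ∀ (M : ℕ) [NeZero M], 5 ≤ M → ¬ 2 ∣ M → ¬ 3 ∣ M →
      KeyLemmaGenStatement (heckeField (F1 M) 3) 2)
    (h2b : ∀ (M : ℕ) [NeZero M], 5 ≤ M → ¬ 2 ∣ M → 3 ∣ M → KeyLemmaGenStatement (F1 M) 2) :
    KeyLemma1Statement := by
  intro M _ hM p hp hpM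
  by_cases h5p : 5 ≤ p
  · exact h5 M hM p hp h5p hpM
  · have hp23 : p = 2 ∨ p = 3 := by
      have h2 := hp.two_le
      have h4 : p ≠ 4 := by
        rintro rfl
        exact absurd hp (by decide)
      omega
    rcases hp23 with rfl | rfl
    · by_cases h3 : 3 ∣ M
      · exact h2b M hM hpM h3
      · exact keyLemma1_two_of_triple M hM h3 (h2a M hM hpM h3)
    · by_cases h2 : 2 ∣ M
      · exact h3b M hM h2 hpM
      · exact keyLemma1_three_of_double M hM h2 (h3a M hM h2 hpM)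

end Fermat.Agent.H29.ES1

end
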