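import Fermat.Agent.H29.ES1.KL2Interfaces
import Fermat.Agent.H29.ES1.Wiring3
import Fermat.Agent.H27.KLGB.ModelTower
import Fermat.Agent.H35.KLGB.Tower
import Fermat.Agent.H2.KLBRGenT
import Fermat.Agent.H61.ES1KL.GaussValT
import Fermat.Agent.H91.ES1KL.KL1
import Fermat.Agent.H6.ES1KL.Br1Data
import Fermat.Agent.H81.KLRed.Reduced
import Fermat.Agent.H88.ES1KL.FibreField
import Fermat.Agent.H91.ES1KL.QAbs
import Fermat.Agent.H69.ES1Finite
import Fermat.Agent.H57.ES1.GaussNormalForm1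
import Fermat.Agent.H70.KL.NormalityAt
import Fermat.Agent.H17.ESD.T2Model
import Fermat.Agent.H1.ESD.T3Rat

/-!
# P-ES1 / ES1-KL, milestone 2 : the key lemma for `X₁(M)` at ALL good primes (helper29)

* `modelGoodBasisGen_of_rel` : chart change of the good basis, generic in the level field
  (port of `Fermat.Agent.H27.KLGB.modelGoodBasis_of_rel`; helper35's tower step).
* `intGenerated_heckeField`, `full_le_heckeField`.
* `keyLemmaGen_three_of_chartJ`, `keyLemmaGen_two_of_chartJ` : the key lemma at `ℓ = 3`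
  (chart `t₂`) and `ℓ = 2` (chart `t₃`) for a level field generated by integral series, from the
  chart-`j` data (good basis, branch data, finiteness).
* `keyLemma1_of_parts` : `KeyLemma1Statement` from `Gb1Statement`, `GbHStatement`,
  `BrHDataStatement`.
-/

set_option autoImplicit false
set_option linter.style.haveILetI false
set_option synthInstance.maxHeartbeats 400000
set_option maxHeartbeats 1000000

noncomputable section

namespace Fermat.Agent.H29.ES1

open ModularCurve AlgebraicCurve Polynomial IntermediateField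
open Fermat.Agent.H22.KL Fermat.Agent.H91.ES1KL Fermat.Agent.H57.ES1

/-! ### chart change of the good basis -/

/-- **KL-GB, tower form, generic in the level field**: a Hauptmodul `t₀` with
`j t₀^e = R(t₀)`. -/
theorem modelGoodBasisGen_of_rel (F₀ : IntermediateField ℚ (LaurentSeries ℚ)) (hj : jq ∈ F₀)
    (ℓ : ℕ) (hl : ℓ.Prime) (hGB : ModelGoodBasisGen F₀ ℓ jq)
    (t₀ : LaurentSeries ℤ) (R : Polynomial ℤ) (e : ℕ) (hR : R.Monic) (he1 : 1 ≤ e)
    (he : e < R.natDegree) (hR0 : ¬ (ℓ : ℤ) ∣ R.coeff 0)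
    (hrel : jqModC ℤ * t₀ ^ e = Polynomial.aeval t₀ R) :
    ModelGoodBasisGen F₀ ℓ (coeffMap (Int.castRingHom ℚ) t₀) := by
  classical
  intro K₁ _ _ _ A₀ _ _ _ _ _ _ _ hℓ ϖ hϖ x hx
  haveI : CharZero K₁ := algebraRat.charZero K₁
  haveI : CharZero (ModelFieldGen K₁ F₀) :=
    charZero_of_injective_algebraMap (algebraMap K₁ (ModelFieldGen K₁ F₀)).injective
  set ι : ModelFieldGen K₁ F₀ →+* LaurentSeries K₁ :=
    algebraMap (ModelFieldGen K₁ F₀) (LaurentSeries K₁) with hι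
  have hιinj : Function.Injective ι := FaithfulSMul.algebraMap_injective _ _
  have hjmem : coeffEmb K₁ jq ∈ laurentBaseChange K₁ F₀ :=
    coeffEmb_mem_laurentBaseChange K₁ hj
  set jE : ModelFieldGen K₁ F₀ := ⟨coeffEmb K₁ jq, hjmem⟩ with hjE
  have hGBj : GoodBasis A₀ (ModelFieldGen K₁ F₀) ϖ jE := hGB K₁ A₀ hℓ ϖ hϖ jE rfl
  have hιj : ι jE = jqModC K₁ := Fermat.Agent.H27.KLGB.coeffEmb_jq K₁
  have hιx : ι x = coeffMap (Int.castRingHom K₁) t₀ := by
    show (x : LaurentSeries K₁) = _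
    rw [hx, Fermat.Agent.H27.KLGB.coeffEmb_coeffMap_int]
  have hcomp : (ι.comp (algebraMap A₀ (ModelFieldGen K₁ F₀))).comp (Int.castRingHom A₀) =
      (coeffMap (Int.castRingHom K₁)).comp (algebraMap ℤ (LaurentSeries ℤ)) :=
    RingHom.ext_int _ _
  have hrelE : jE * x ^ e = Polynomial.aeval x (R.map (Int.castRingHom A₀)) := by
    apply hιinj
    rw [map_mul, map_pow, hιj, hιx, Polynomial.aeval_def, Polynomial.hom_eval₂,
      Polynomial.eval₂_map, hιx, hcomp]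
    have h1 := congrArg (coeffMap (Int.castRingHom K₁)) hrel
    rw [map_mul, map_pow, coeffMap_jqModC, Polynomial.aeval_def, Polynomial.hom_eval₂] at h1
    exact h1
  have hx0 : x ≠ 0 := by
    intro h0
    rw [h0, zero_pow (by omega : e ≠ 0), mul_zero, ← Polynomial.coeff_zero_eq_aeval_zero',
      Polynomial.coeff_map] at hrelE
    have hu : IsUnit ((Int.castRingHom A₀) (R.coeff 0)) :=
      Fermat.Agent.H27.KLGB.isUnit_intCast_of_not_dvd ℓ hl hℓ _ hR0
    have h2 : algebraMap A₀ (ModelFieldGen K₁ F₀) ((Int.castRingHom A₀) (R.coeff 0)) ≠ 0 :=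
      (hu.map (algebraMap A₀ (ModelFieldGen K₁ F₀))).ne_zero
    exact h2 hrelE.symm
  have hjtr : Transcendental A₀ jE := modelTranscendentalGen_jq F₀ K₁ A₀ jE rfl
  have hxtr : Transcendental A₀ x := by
    intro halg
    apply hjtr
    have halgK : IsAlgebraic K₁ x := (IsFractionRing.isAlgebraic_iff A₀ K₁ _).mp halg
    have hxm : x ∈ algebraicClosure K₁ (ModelFieldGen K₁ F₀) := mem_algebraicClosure_iff.mpr halgK
    have hjm : jE ∈ algebraicClosure K₁ (ModelFieldGen K₁ F₀) := by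
      have h1 : jE = Polynomial.aeval x (R.map (Int.castRingHom A₀)) / x ^ e := by
        rw [← hrelE, mul_div_assoc, div_self (pow_ne_zero e hx0), mul_one]
      rw [h1]
      refine div_mem ?_ (pow_mem hxm e)
      have h2 := IntermediateField.aeval_coe (algebraicClosure K₁ (ModelFieldGen K₁ F₀))
        (⟨x, hxm⟩ : ↥(algebraicClosure K₁ (ModelFieldGen K₁ F₀))) (R.map (Int.castRingHom A₀))
      have h3 : Polynomial.aeval x (R.map (Int.castRingHom A₀)) =
          ((Polynomial.aeval (⟨x, hxm⟩ : ↥(algebraicClosure K₁ (ModelFieldGen K₁ F₀)))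
            (R.map (Int.castRingHom A₀)) : ↥(algebraicClosure K₁ (ModelFieldGen K₁ F₀))) :
              ModelFieldGen K₁ F₀) := h2
      rw [h3]
      exact Subtype.property _
    exact (IsFractionRing.isAlgebraic_iff A₀ K₁ _).mpr (mem_algebraicClosure_iff.mp hjm)
  exact Fermat.Agent.H35.KLGB.goodBasis_tower A₀ (ModelFieldGen K₁ F₀) ϖ hϖ jE x hxtr
    (R.map (Int.castRingHom A₀)) e (hR.map _) he1 (by rwa [hR.natDegree_map])
    (by
      rw [Polynomial.coeff_map]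
      exact Fermat.Agent.H27.KLGB.isUnit_intCast_of_not_dvd ℓ hl hℓ _ hR0)
    hrelE hGBj

/-- **KL-GB for `x = t₂`**, generic level field: every prime `ℓ ≠ 2`. -/
theorem modelGoodBasisGen_t2 (F₀ : IntermediateField ℚ (LaurentSeries ℚ)) (hj : jq ∈ F₀)
    (ℓ : ℕ) (hl : ℓ.Prime) (h2 : ℓ ≠ 2) (hGB : ModelGoodBasisGen F₀ ℓ jq) :
    ModelGoodBasisGen F₀ ℓ (Fermat.Agent.H17.ESD.t2S ℚ) := by
  have h := modelGoodBasisGen_of_rel F₀ hj ℓ hl hGB (Fermat.Agent.H17.ESD.t2S ℤ)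
    ((Polynomial.X + Polynomial.C 256) ^ 3) 2 ((Polynomial.monic_X_add_C 256).pow 3)
    (by norm_num)
    (by rw [(Polynomial.monic_X_add_C (256 : ℤ)).natDegree_pow,
          Polynomial.natDegree_X_add_C]; norm_num)
    (by
      rw [Polynomial.coeff_zero_eq_eval_zero]
      simp only [Polynomial.eval_pow, Polynomial.eval_add, Polynomial.eval_X,
        Polynomial.eval_C, zero_add]
      have h3 := Fermat.Agent.H27.KLGB.not_dvd_pow_of_prime_ne hl Nat.prime_two h2 24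
      norm_num at h3 ⊢
      exact h3)
    (by
      rw [Fermat.Agent.H17.ESD.t2S_identity ℤ]
      simp only [map_pow, map_add, Polynomial.aeval_X, map_ofNat])
  rwa [Fermat.Agent.H17.ESD.coeffMap_t2S] at h

/-- **KL-GB for `x = t₃`**, generic level field: every prime `ℓ ≠ 3`. -/
theorem modelGoodBasisGen_t3 (F₀ : IntermediateField ℚ (LaurentSeries ℚ)) (hj : jq ∈ F₀)
    (ℓ : ℕ) (hl : ℓ.Prime) (h3 : ℓ ≠ 3) (hGB : ModelGoodBasisGen F₀ ℓ jq) :
    ModelGoodBasisGen F₀ ℓ (Fermat.Agent.H1.ESD.t3 ℚ) := by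
  have hm : ((Polynomial.X + Polynomial.C 27) * (Polynomial.X + Polynomial.C 243) ^ 3 :
      Polynomial ℤ).Monic :=
    (Polynomial.monic_X_add_C 27).mul ((Polynomial.monic_X_add_C 243).pow 3)
  have hdeg : ((Polynomial.X + Polynomial.C 27) * (Polynomial.X + Polynomial.C 243) ^ 3 :
      Polynomial ℤ).natDegree = 4 := by
    rw [(Polynomial.monic_X_add_C (27 : ℤ)).natDegree_mul
      ((Polynomial.monic_X_add_C (243 : ℤ)).pow 3),
      (Polynomial.monic_X_add_C (243 : ℤ)).natDegree_pow, Polynomial.natDegree_X_add_C,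
      Polynomial.natDegree_X_add_C]
  have h := modelGoodBasisGen_of_rel F₀ hj ℓ hl hGB (Fermat.Agent.H1.ESD.t3 ℤ)
    ((Polynomial.X + Polynomial.C 27) * (Polynomial.X + Polynomial.C 243) ^ 3) 3 hm
    (by norm_num) (by rw [hdeg]; norm_num)
    (by
      rw [Polynomial.coeff_zero_eq_eval_zero]
      simp only [Polynomial.eval_mul, Polynomial.eval_pow, Polynomial.eval_add,
        Polynomial.eval_X, Polynomial.eval_C, zero_add]
      have h4 := Fermat.Agent.H27.KLGB.not_dvd_pow_of_prime_ne hl Nat.prime_three h3 18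
      norm_num at h4 ⊢
      exact h4)
    (by
      rw [Fermat.Agent.H1.ESD.t3_rel ℤ]
      simp only [map_mul, map_pow, map_add, Polynomial.aeval_X, map_ofNat])
  rwa [Fermat.Agent.H1.ESD.coeffMap_t3] at h

/-! ### the Hecke field -/

/-- The Hecke field of a level field generated by integral series is generated by integral
series. -/
theorem intGenerated_heckeField {F₀ : IntermediateField ℚ (LaurentSeries ℚ)}
    (hF : IntGenerated F₀) (p : ℕ) [NeZero p] : IntGenerated (heckeField F₀ p) := by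
  obtain ⟨S, hS, hint⟩ := hF
  refine ⟨S ∪ ⇑(qExpand ℚ p) '' S, by rw [hS, Fermat.Agent.H69.ES1.heckeField_adjoin], ?_⟩
  rintro x (hx | ⟨z, hz, rfl⟩)
  · exact hint x hx
  · obtain ⟨a, ha⟩ := hint z hz
    exact ⟨qExpand ℤ p a, by rw [coeffMap_qExpand, ha]⟩

/-- `ℚ(j(q), j(q^p)) ⊆ F₀ · V_p(F₀)` as soon as `j ∈ F₀`. -/
theorem full_le_heckeField (F₀ : IntermediateField ℚ (LaurentSeries ℚ)) (hj : jq ∈ F₀)
    (p : ℕ) [NeZero p] (hp : p.Prime) : modularFunctionFieldFull p ≤ heckeField F₀ p := by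
  rw [modularFunctionFieldFull, IntermediateField.adjoin_le_iff]
  rintro x ⟨d, hd0, hd, rfl⟩
  rcases (Nat.dvd_prime hp).mp hd with h1 | h1
  · subst h1
    rw [qExpand_one_apply]
    exact le_heckeField F₀ p hj
  · subst h1
    exact qExpand_mem_heckeField F₀ _ hj

/-! ### the key lemma at `ℓ = 3` and `ℓ = 2` from the chart-`j` data -/

/-- The abstract `q`-expansion principle (unconditional). -/
theorem qExpAbs1 : QExpAbsStatement :=
  qExpAbs_of_field (Fermat.Agent.H88.ES1KL.fibreField Fermat.Agent.H81.KLRed.reducedFibre)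

/-- **The key lemma at `ℓ = 3`** (chart `t₂`) for a level field generated by integral series and
containing `t₂`, from the chart-`j` data. -/
theorem keyLemmaGen_three_of_chartJ (F₀ : IntermediateField ℚ (LaurentSeries ℚ))
    (hInt : IntGenerated F₀) (hj : jq ∈ F₀) (ht : Fermat.Agent.H17.ESD.t2S ℚ ∈ F₀)
    (N : ℕ) (hN0 : N ≠ 0) (hN3 : Nat.Coprime N 3)
    (hfin : FiniteDimensional (AlgebraicClosure ℚ)⟮Fermat.Agent.H2.jBarGen F₀ hj⟯
      ↥(laurentBaseChange (AlgebraicClosure ℚ) F₀))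
    (H : Fermat.Agent.H2.BranchClean (AlgebraicClosure ℚ) (Fermat.Agent.H2.jBarGen F₀ hj)
      (1728 : AlgebraicClosure ℚ) 3 2 N)
    (hGB : ModelGoodBasisGen F₀ 3 jq) : KeyLemmaGenStatement F₀ 3 := by
  have hTr : ModelTranscendentalGen F₀ (Fermat.Agent.H17.ESD.t2S ℚ) :=
    modelTranscendentalGen_of_order_ne_zero F₀ _ (by
      rw [Fermat.Agent.H17.ESD.t2S_order]
      norm_num)
  have hGBt : ModelGoodBasisGen F₀ 3 (Fermat.Agent.H17.ESD.t2S ℚ) :=
    modelGoodBasisGen_t2 F₀ hj 3 Nat.prime_three (by norm_num) hGB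
  have hBR : ModelBranchGen F₀ 3 (Fermat.Agent.H17.ESD.t2S ℚ) (2 * N) :=
    Fermat.Agent.H2.klbr_modelGen_t2S F₀ hj ht N hfin H 3 (by norm_num) hN3 (2 * N)
      (by omega) (dvd_mul_right 2 N) (dvd_mul_left N 2)
  have hQ : ModelQExpRootGen F₀ 3 (Fermat.Agent.H17.ESD.t2S ℚ) (2 * N) :=
    modelQExpRootGen_of_parts Fermat.Agent.H70.KL.normalityAt qExpAbs1 F₀ 3 _ (2 * N) hTr hGBt
      hBR (Fermat.Agent.H61.ES1KL.gaussValGen_t2 F₀ hInt)
  exact keyLemmaGen_of_modelInputsRoot Fermat.Agent.H70.KL.normalityAt F₀ 3 Nat.prime_three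
    (gaussNormalFormGen hInt) (modelCuspPlaceGen F₀ hj)
    ⟨Fermat.Agent.H17.ESD.t2S ℚ, 2 * N, ht, by omega, hTr, hGBt, hBR, hQ⟩

/-- **The key lemma at `ℓ = 2`** (chart `t₃`) for a level field generated by integral series and
containing `t₃`, from the chart-`j` data. -/
theorem keyLemmaGen_two_of_chartJ (F₀ : IntermediateField ℚ (LaurentSeries ℚ))
    (hInt : IntGenerated F₀) (hj : jq ∈ F₀) (ht : Fermat.Agent.H1.ESD.t3 ℚ ∈ F₀)
    (N : ℕ) (hN0 : N ≠ 0) (hN2 : Nat.Coprime N 2)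
    (hfin : FiniteDimensional (AlgebraicClosure ℚ)⟮Fermat.Agent.H2.jBarGen F₀ hj⟯
      ↥(laurentBaseChange (AlgebraicClosure ℚ) F₀))
    (H : Fermat.Agent.H2.BranchClean (AlgebraicClosure ℚ) (Fermat.Agent.H2.jBarGen F₀ hj)
      (1728 : AlgebraicClosure ℚ) 3 2 N)
    (hGB : ModelGoodBasisGen F₀ 2 jq) : KeyLemmaGenStatement F₀ 2 := by
  have hTr : ModelTranscendentalGen F₀ (Fermat.Agent.H1.ESD.t3 ℚ) :=
    modelTranscendentalGen_of_order_ne_zero F₀ _ Fermat.Agent.H1.ESD.order_t3_rat_ne_zero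
  have hGBt : ModelGoodBasisGen F₀ 2 (Fermat.Agent.H1.ESD.t3 ℚ) :=
    modelGoodBasisGen_t3 F₀ hj 2 Nat.prime_two (by norm_num) hGB
  have hBR : ModelBranchGen F₀ 2 (Fermat.Agent.H1.ESD.t3 ℚ) (3 * N) :=
    Fermat.Agent.H2.klbr_modelGen_t3 F₀ hj ht N hfin H 2 (by norm_num) hN2 (3 * N)
      (by omega) (dvd_mul_right 3 N) (dvd_mul_left N 3)
  have hQ : ModelQExpRootGen F₀ 2 (Fermat.Agent.H1.ESD.t3 ℚ) (3 * N) :=
    modelQExpRootGen_of_parts Fermat.Agent.H70.KL.normalityAt qExpAbs1 F₀ 2 _ (3 * N) hTr hGBt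
      hBR (Fermat.Agent.H61.ES1KL.gaussValGen_t3 F₀ hInt)
  exact keyLemmaGen_of_modelInputsRoot Fermat.Agent.H70.KL.normalityAt F₀ 2 Nat.prime_two
    (gaussNormalFormGen hInt) (modelCuspPlaceGen F₀ hj)
    ⟨Fermat.Agent.H1.ESD.t3 ℚ, 3 * N, ht, by omega, hTr, hGBt, hBR, hQ⟩

/-! ### the four small cases and the final statement -/

theorem coprime_of_not_dvd_prime {N ℓ : ℕ} (hℓ : ℓ.Prime) (h : ¬ ℓ ∣ N) : Nat.Coprime N ℓ :=
  ((Nat.Prime.coprime_iff_not_dvd hℓ).mpr h).symm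

/-- `ℓ = 3` on `Γ₁(M)`, `2 ∣ M`. -/
theorem keyLemma1_three_even (hGB : Gb1Statement) (M : ℕ) [NeZero M] (hM : 5 ≤ M)
    (h2 : 2 ∣ M) (h3 : ¬ 3 ∣ M) : KeyLemmaGenStatement (F1 M) 3 :=
  keyLemmaGen_three_of_chartJ (F1 M) (intGenerated_F1 M) (jq_mem_F1 M)
    (full_le_F1 M (Fermat.Agent.H17.ESD.t2S_rat_mem M h2)) M (by omega)
    (coprime_of_not_dvd_prime Nat.prime_three h3)
    (Fermat.Agent.H69.ES1.finiteDimensional_F1 vFun M (by omega) (AlgebraicClosure ℚ))
    (Fermat.Agent.H6.ES1KL.br1Data M hM) (hGB M hM 3 Nat.prime_three h3)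

/-- `ℓ = 2` on `Γ₁(M)`, `3 ∣ M`. -/
theorem keyLemma1_two_triple (hGB : Gb1Statement) (M : ℕ) [NeZero M] (hM : 5 ≤ M)
    (h2 : ¬ 2 ∣ M) (h3 : 3 ∣ M) : KeyLemmaGenStatement (F1 M) 2 :=
  keyLemmaGen_two_of_chartJ (F1 M) (intGenerated_F1 M) (jq_mem_F1 M)
    (full_le_F1 M (Fermat.Agent.H1.ESD.t3_rat_mem_full M h3)) M (by omega)
    (coprime_of_not_dvd_prime Nat.prime_two h2)
    (Fermat.Agent.H69.ES1.finiteDimensional_F1 vFun M (by omega) (AlgebraicClosure ℚ))
    (Fermat.Agent.H6.ES1KL.br1Data M hM) (hGB M hM 2 Nat.prime_two h2)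

/-- `ℓ = 3` on `Γ₁(M) ∩ Γ₀(2)`, `M` prime to `6`. -/
theorem keyLemma1_three_hecke (hGBH : GbHStatement) (hBRH : BrHDataStatement)
    (M : ℕ) [NeZero M] (hM : 5 ≤ M) (h2 : ¬ 2 ∣ M) (h3 : ¬ 3 ∣ M) :
    KeyLemmaGenStatement (heckeField (F1 M) 2) 3 :=
  keyLemmaGen_three_of_chartJ (heckeField (F1 M) 2)
    (intGenerated_heckeField (intGenerated_F1 M) 2) (jq_mem_heckeField1 M 2)
    (full_le_heckeField (F1 M) (jq_mem_F1 M) 2 Nat.prime_two
      (Fermat.Agent.H17.ESD.t2S_rat_mem 2 dvd_rfl)) (2 * M) (by omega)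
    (Nat.Coprime.mul_left (by norm_num) (coprime_of_not_dvd_prime Nat.prime_three h3))
    (Fermat.Agent.H69.ES1.finiteDimensional_heckeField_F1 vFun M (by omega) 2
      (AlgebraicClosure ℚ))
    (hBRH M hM 2 Nat.prime_two h2) (hGBH M hM 2 Nat.prime_two h2 3 Nat.prime_three h3 (by norm_num))

/-- `ℓ = 2` on `Γ₁(M) ∩ Γ₀(3)`, `M` prime to `6`. -/
theorem keyLemma1_two_hecke (hGBH : GbHStatement) (hBRH : BrHDataStatement)
    (M : ℕ) [NeZero M] (hM : 5 ≤ M) (h2 : ¬ 2 ∣ M) (h3 : ¬ 3 ∣ M) :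
    KeyLemmaGenStatement (heckeField (F1 M) 3) 2 :=
  keyLemmaGen_two_of_chartJ (heckeField (F1 M) 3)
    (intGenerated_heckeField (intGenerated_F1 M) 3) (jq_mem_heckeField1 M 3)
    (full_le_heckeField (F1 M) (jq_mem_F1 M) 3 Nat.prime_three
      (Fermat.Agent.H1.ESD.t3_rat_mem_full 3 dvd_rfl)) (3 * M) (by omega)
    (Nat.Coprime.mul_left (by norm_num) (coprime_of_not_dvd_prime Nat.prime_two h2))
    (Fermat.Agent.H69.ES1.finiteDimensional_heckeField_F1 vFun M (by omega) 3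
      (AlgebraicClosure ℚ))
    (hBRH M hM 3 Nat.prime_three h3) (hGBH M hM 3 Nat.prime_three h3 2 Nat.prime_two h2 (by norm_num))

/-- The key lemma for `X₁(M)` at `ℓ ≥ 5` from the good basis alone. -/
theorem keyLemma1_five_le (hGB : Gb1Statement) (M : ℕ) [NeZero M] (hM : 5 ≤ M) (ℓ : ℕ)
    (hℓ : ℓ.Prime) (h5 : 5 ≤ ℓ) (hℓM : ¬ ℓ ∣ M) : KeyLemmaGenStatement (F1 M) ℓ :=
  keyLemma1_five_le_of_parts hGB Fermat.Agent.H6.ES1KL.br1
    (qExp1_of_parts hGB Fermat.Agent.H6.ES1KL.br1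
      (fun M _ _ => Fermat.Agent.H61.ES1KL.gaussValGen_F1 M) qExpAbs1) M hM ℓ hℓ h5 hℓM

/-- **ES1-KL, final**: the key lemma for `X₁(M)` at ALL good primes from the three model
inputs: `Gb1Statement` (good basis of `F1 M`), `GbHStatement` and `BrHDataStatement` (good basis
and branch data of the Hecke fields at `p = 2, 3`). -/
theorem keyLemma1_of_parts (hGB : Gb1Statement) (hGBH : GbHStatement)
    (hBRH : BrHDataStatement) : KeyLemma1Statement :=
  keyLemma1_of_cases (fun M _ hM ℓ hℓ h5 hℓM => keyLemma1_five_le hGB M hM ℓ hℓ h5 hℓM)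
    (fun M _ hM h2 h3 => keyLemma1_three_hecke hGBH hBRH M hM h2 h3)
    (fun M _ hM h2 h3 => keyLemma1_three_even hGB M hM h2 h3)
    (fun M _ hM h2 h3 => keyLemma1_two_hecke hGBH hBRH M hM h2 h3)
    (fun M _ hM h2 h3 => keyLemma1_two_triple hGB M hM h2 h3)

/-- **S48** from the three model inputs. -/
theorem s48_of_parts (hGB : Gb1Statement) (hGBH : GbHStatement) (hBRH : BrHDataStatement) :
    Fermat.Agent.H20.DS.S48Statement :=
  s48_of_keyLemma1 (keyLemma1_of_parts hGB hGBH hBRH)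

end Fermat.Agent.H29.ES1

end
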