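import Fermat.Agent.H29.ES1.KL2Asm
import Fermat.Agent.H74.ES1KL.GB1
import Fermat.Agent.H6.ES1KL.BrHData

/-!
# P-ES1 / ES1-KL : `KeyLemma1Statement` and S48 from the good basis of the two Hecke fields
(helper29)

`Gb1Statement` (helper74) and `BrHDataStatement` (helper6) are landed theorems; the only open
input is the good basis, in the chart `j`, of `heckeField (F1 M) 2` at `ℓ = 3` and of
`heckeField (F1 M) 3` at `ℓ = 2` (`M` prime to `6`).

* `gb1 : Gb1Statement`.
* `keyLemma1_of_gbH23`, `s48_of_gbH23` : from the two good bases.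
* `keyLemma1_of_gbH`, `s48_of_gbH` : from `GbHStatement`.
-/

set_option autoImplicit false
set_option linter.style.haveILetI false
set_option synthInstance.maxHeartbeats 400000
set_option maxHeartbeats 1000000

noncomputable section

namespace Fermat.Agent.H29.ES1

open ModularCurve AlgebraicCurve
open Fermat.Agent.H22.KL Fermat.Agent.H91.ES1KL Fermat.Agent.H57.ES1

/-- **GB1** (helper74), in the shape of the interface. -/
theorem gb1 : Gb1Statement := fun M _ hM ℓ hℓ hℓM =>
  Fermat.Agent.H74.ES1KL.modelGoodBasis_F1 (M := M) vFun (by omega) ℓ hℓ hℓM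

/-- **ES1-KL, final form**: the key lemma for `X₁(M)` at all good primes from the good bases of
the two Hecke fields. -/
theorem keyLemma1_of_gbH23
    (h23 : ∀ (M : ℕ) [NeZero M], 5 ≤ M → ¬ 2 ∣ M → ¬ 3 ∣ M →
      ModelGoodBasisGen (heckeField (F1 M) 2) 3 jq)
    (h32 : ∀ (M : ℕ) [NeZero M], 5 ≤ M → ¬ 2 ∣ M → ¬ 3 ∣ M →
      ModelGoodBasisGen (heckeField (F1 M) 3) 2 jq) : KeyLemma1Statement :=
  keyLemma1_of_cases (fun M _ hM ℓ hℓ h5 hℓM => keyLemma1_five_le gb1 M hM ℓ hℓ h5 hℓM)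
    (fun M _ hM h2 h3 =>
      keyLemmaGen_three_of_chartJ (heckeField (F1 M) 2)
        (intGenerated_heckeField (intGenerated_F1 M) 2) (jq_mem_heckeField1 M 2)
        (full_le_heckeField (F1 M) (jq_mem_F1 M) 2 Nat.prime_two
          (Fermat.Agent.H17.ESD.t2S_rat_mem 2 dvd_rfl)) (2 * M) (by omega)
        (Nat.Coprime.mul_left (by norm_num) (coprime_of_not_dvd_prime Nat.prime_three h3))
        (Fermat.Agent.H69.ES1.finiteDimensional_heckeField_F1 vFun M (by omega) 2
          (AlgebraicClosure ℚ))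
        (Fermat.Agent.H6.ES1KL.brHData M hM 2 Nat.prime_two h2) (h23 M hM h2 h3))
    (fun M _ hM h2 h3 => keyLemma1_three_even gb1 M hM h2 h3)
    (fun M _ hM h2 h3 =>
      keyLemmaGen_two_of_chartJ (heckeField (F1 M) 3)
        (intGenerated_heckeField (intGenerated_F1 M) 3) (jq_mem_heckeField1 M 3)
        (full_le_heckeField (F1 M) (jq_mem_F1 M) 3 Nat.prime_three
          (Fermat.Agent.H1.ESD.t3_rat_mem_full 3 dvd_rfl)) (3 * M) (by omega)
        (Nat.Coprime.mul_left (by norm_num) (coprime_of_not_dvd_prime Nat.prime_two h2))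
        (Fermat.Agent.H69.ES1.finiteDimensional_heckeField_F1 vFun M (by omega) 3
          (AlgebraicClosure ℚ))
        (Fermat.Agent.H6.ES1KL.brHData M hM 3 Nat.prime_three h3) (h32 M hM h2 h3))
    (fun M _ hM h2 h3 => keyLemma1_two_triple gb1 M hM h2 h3)

/-- The key lemma for `X₁(M)` from `GbHStatement`. -/
theorem keyLemma1_of_gbH (h : GbHStatement) : KeyLemma1Statement :=
  keyLemma1_of_gbH23
    (fun M _ hM h2 h3 => h M hM 2 Nat.prime_two h2 3 Nat.prime_three h3 (by norm_num))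
    (fun M _ hM h2 h3 => h M hM 3 Nat.prime_three h3 2 Nat.prime_two h2 (by norm_num))

/-- **S48** from the good bases of the two Hecke fields. -/
theorem s48_of_gbH23
    (h23 : ∀ (M : ℕ) [NeZero M], 5 ≤ M → ¬ 2 ∣ M → ¬ 3 ∣ M →
      ModelGoodBasisGen (heckeField (F1 M) 2) 3 jq)
    (h32 : ∀ (M : ℕ) [NeZero M], 5 ≤ M → ¬ 2 ∣ M → ¬ 3 ∣ M →
      ModelGoodBasisGen (heckeField (F1 M) 3) 2 jq) : Fermat.Agent.H20.DS.S48Statement :=
  s48_of_keyLemma1 (keyLemma1_of_gbH23 h23 h32)

/-- **S48** from `GbHStatement`. -/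
theorem s48_of_gbH (h : GbHStatement) : Fermat.Agent.H20.DS.S48Statement :=
  s48_of_keyLemma1 (keyLemma1_of_gbH h)

end Fermat.Agent.H29.ES1

end
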