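import Fermat.Agent.H29.ES1.Descent1Final
import Fermat.Agent.H61.ES1.DiamondLift
import Fermat.Agent.H16.ES1ESFinal
import Fermat.Agent.H34.ES1AL.Main
import Fermat.Agent.H20.DS.Assembly2

/-!
# P-ES1 : wiring, second stage (helper29)

`gamma1Residual_of_open` : `Gamma1ResidualStatement` (= DS-3 of P-DS, hence S48) from the
statements of P-ES1 which are still open:

* `KeyLemma1Statement` (block ES1-KL, helper91),
* `Fermat.Agent.H16.DiamondGaussStatement` (row 668) and
  `Fermat.Agent.H16.HeckeDegree1Statement` (row 667) of block ES1-ES (helper16),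
* `J1EigenStatement` (block ES1-C, helper21).
-/

set_option autoImplicit false

noncomputable section

namespace Fermat.Agent.H29.ES1

/-- **ES1-GAL**, unconditional (helper61). -/
theorem j1GalHecke : J1GalHeckeStatement :=
  Fermat.Agent.H61.ES1.j1GalHecke vFun

/-- The Hecke inputs for `X₁(M)` over `ℚ̄`, unconditional (helper12 + helper69). -/
theorem heckeInputs1Statement : Fermat.Agent.H16.HeckeInputs1Statement :=
  fun M _ hM p _ _ _ => heckeInputs1 (AlgebraicClosure ℚ) M (by omega) p

/-- **ES1-ES-AL**, unconditional (helper34). -/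
theorem atkinLehner1 : Fermat.Agent.H16.AtkinLehner1Statement :=
  Fermat.Agent.H34.atkinLehner1 vFun diamondExists

/-- **ES1-ES** from the key lemma and the two open rows of the block. -/
theorem j1EichlerShimura_of (hKL : KeyLemma1Statement)
    (hDG : Fermat.Agent.H16.DiamondGaussStatement)
    (hDEG : Fermat.Agent.H16.HeckeDegree1Statement) : J1EichlerShimuraStatement :=
  Fermat.Agent.H16.j1EichlerShimura_of_inputs hKL diamondExists heckeInputs1Statement hDG
    atkinLehner1 hDEG

/-- **P-ES1** from the open statements. -/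
theorem gamma1Residual_of_open (hKL : KeyLemma1Statement)
    (hDG : Fermat.Agent.H16.DiamondGaussStatement)
    (hDEG : Fermat.Agent.H16.HeckeDegree1Statement) (hEIG : J1EigenStatement) :
    Fermat.Agent.H20.DS.Gamma1ResidualStatement :=
  Fermat.Agent.H46.ES1.gamma1Residual_of_five
    (Fermat.Agent.H28.gamma1Residual5_of_parts j1TorsFinite j1Smooth j1GalHecke
      (Fermat.Agent.H89.j1Unramified hKL Fermat.Agent.H57.ES1.gaussNormalForm1)
      (j1EichlerShimura_of hKL hDG hDEG) hEIG)

/-- **S48** (Deligne–Serre) from the open statements of P-ES1. -/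
theorem s48_of_open (hKL : KeyLemma1Statement)
    (hDG : Fermat.Agent.H16.DiamondGaussStatement)
    (hDEG : Fermat.Agent.H16.HeckeDegree1Statement) (hEIG : J1EigenStatement) :
    Fermat.Agent.H20.DS.S48Statement :=
  Fermat.Agent.H20.DS.s48_of_gamma1Residual (gamma1Residual_of_open hKL hDG hDEG hEIG)

end Fermat.Agent.H29.ES1

end
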